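import Fermat.Agent.Red.KR.Skel2
import Fermat.Agent.Red.SM.XPrimeAbs

/-!
# P-RED, module R-KR, leaf NORM-FIN (helper66)

`ν(f) = Norm_α (β f)` maps the finite chart of level `N` to itself, as soon as `β j` is integral
over `A[j]` in `F_{Nℓ}` (ME-α).

* `β f` is integral over `A[β j]`, and `β j` is integral over `A[j_{Nℓ}] = A[α j]`; so `β f` is
  integral over `A[α j]`.
* the coefficients of the characteristic polynomial of `β f` along `α` are integral over `A[j]`.
* `Norm_α (-y)` is the constant coefficient of the characteristic polynomial of `y`.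
-/

set_option autoImplicit false

open AlgebraicCurve ModularCurve IntermediateField Polynomial

noncomputable section

namespace Fermat.Agent.Red.KR

open Fermat.Agent.S37

/-- `modelAt x ≤ modelAt y` as soon as `x ∈ modelAt y`. -/
theorem h66_modelAt_le_of_mem (M : ℕ) (A : ValuationSubring Kbar) {x y : FF M}
    (h : x ∈ modelAt M A y) : modelAt M A x ≤ modelAt M A y :=
  Fermat.Agent.Red.SM.XP.h8xp_ic_closure_le _ h

/-- the norm along `φ` of `-y` is the constant coefficient of the characteristic polynomial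
of `y`. -/
theorem h66_normAlong_neg_eq_coeff_zero {K F F' : Type*} [Field K] [Field F] [Field F']
    [Algebra K F] [Algebra K F'] (φ : F →ₐ[K] F') (hfin : FiniteAlong K φ) (y : F') :
    normAlong φ (-y) = (Fermat.Agent.Red.TRK.charpolyAlong φ hfin y).coeff 0 := by
  have h := normAlong_sub_eq_eval φ hfin 0 y
  rw [map_zero, zero_sub] at h
  rw [h, Polynomial.coeff_zero_eq_eval_zero]

/-- a chart function of level `Nℓ` over `A[α x]` has its norm along `α` in the chart over
`A[x]`. -/
theorem h66_normAlong_mem_modelAt {N M : ℕ} (φ : FF N →ₐ[Kbar] FF M)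
    (hfin : FiniteAlong Kbar φ) (A : ValuationSubring Kbar) (x : FF N) {g : FF M}
    (hg : g ∈ modelAt M A (φ x)) : normAlong φ g ∈ modelAt N A x := by
  have h1 : -g ∈ modelAt M A (φ x) := neg_mem hg
  have h2 := Fermat.Agent.Red.TRK.h87_coeff_mem_modelAt φ hfin A x h1 0
  rw [← h66_normAlong_neg_eq_coeff_zero φ hfin (-g), neg_neg] at h2
  exact h2

/-- **NORM-FIN.**  `ν = Norm_α ∘ β` maps the finite chart to the finite chart. -/
theorem normFin (h : MEAlphaStatement) : NormFinStatement := by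
  intro N ℓ _ _ hℓ hN A hA f hf
  have hfin : FiniteAlong Kbar (heckeAlphaBar Kbar N ℓ) :=
    Fermat.Agent.Red.HKMod.finiteAlong_heckeAlphaBar N ℓ
  -- `β f` is integral over `A[β j]`
  have h1 : heckeBetaBar Kbar N ℓ f ∈ modelAt (N * ℓ) A (heckeBetaBar Kbar N ℓ (jB N)) :=
    map_mem_modelAt (heckeBetaBar Kbar N ℓ) A hf
  -- `β j` is integral over `A[j_{Nℓ}]`
  have h2 : heckeBetaBar Kbar N ℓ (jB N) ∈ modelAt (N * ℓ) A (jB (N * ℓ)) := h N ℓ hℓ hN A hA
  have h3 : heckeBetaBar Kbar N ℓ f ∈ modelAt (N * ℓ) A (jB (N * ℓ)) :=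
    h66_modelAt_le_of_mem (N * ℓ) A h2 h1
  have hj : jB (N * ℓ) = heckeAlphaBar Kbar N ℓ (jB N) :=
    (Fermat.Agent.Red.HKMod.heckeAlphaBar_jBar N ℓ).symm
  rw [hj] at h3
  exact h66_normAlong_mem_modelAt (heckeAlphaBar Kbar N ℓ) hfin A (jB N) h3

end Fermat.Agent.Red.KR
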