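import Fermat.Agent.Red.KR.Skel
import Fermat.Agent.S28.PartOne

/-!
# P-RED, R-KR leaf ME0 (helper27): `j(q^d)` is integral over `ℚ[j]`

The characteristic polynomial machine of S28 (level `d`, function `τ ↦ j(dτ)`), transferred to
formal `q`-expansions and descended to rational coefficients.
-/

set_option autoImplicit false

open AlgebraicCurve ModularCurve IntermediateField Polynomial

noncomputable section

namespace Fermat.Agent.Red.KR

open Fermat.Agent.S28

/-- `evalAtQ x` restricted to polynomials over a subring `R ⊆ ℚ` is `evalAt R x`. -/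
theorem h27_evalAtQ_comp_map (R : Subring ℚ) (x : LaurentSeries ℚ) :
    (evalAtQ x).comp (Polynomial.mapRingHom R.subtype) = evalAt R x := by
  refine Polynomial.ringHom_ext (fun a => ?_) ?_
  · simp [evalAtQ, evalAt]
  · simp [evalAtQ, evalAt]

/-- **ME0**: `j(q^d)` is integral over `ℚ[j]`. -/
theorem me0 : ME0Statement := by
  intro d hd
  have : NeZero d := ⟨hd.ne'⟩
  have hb := h44_bridgeStatement d hd
  have hc := h44_cuspStatement d hd
  obtain ⟨P, hP, -, -, hzero⟩ := h44_charpoly_machine hb.1 d (cycRing d) (jAt d) (holo_jAt d)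
    (fun γ hγ τ => jAt_smul_of_mem_Gamma0 d d dvd_rfl hd γ hγ τ) d (hc.1 d dvd_rfl)
  have hz := h52_transfer_subring one_pos _ P hb.1 (hb.2.1 d hd) hzero
  obtain ⟨l', hl'gt, hl'⟩ := Nat.exists_infinite_primes (d + 1)
  have : Fact l'.Prime := ⟨hl'⟩
  have hl'd : ¬ l' ∣ d := fun h => by
    have := Nat.le_of_dvd hd h
    omega
  obtain ⟨Q, hQ, hQz⟩ := h52_integral_transfer d l' hd hl'd jq (jSub d) P hP hz
  refine ⟨Q.map (Polynomial.mapRingHom (GaloisRep.ratLocalizedAt l').subtype), hQ.map _, ?_⟩
  rw [Polynomial.eval₂_map, h27_evalAtQ_comp_map]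
  exact hQz

end Fermat.Agent.Red.KR
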