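import Fermat.Agent.Red.KR.Skel2
import Fermat.Agent.Red.KR.ME0
import Fermat.Agent.Red.Kron.CharpolyAlong
import Fermat.Agent.Red.BC.Descent
import Fermat.Agent.Red.ESTF.Cong

/-!
# P-RED, R-KR leaf ME-α (helper69): `j(q^ℓ)` is integral over `A[j]`

`Ψ` := the characteristic polynomial of `β(j) = j(q^ℓ)` over `F_N` along `α`.

* the coefficients of `Ψ` are integral over `ℚ̄[j]` (`me0`), hence after scaling by a power of
  `ℓ` they lie in the finite chart;
* the product formula (`Kron.charpolyAlong_alpha_beta`) shows that they have `q`-expansion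
  coefficients in `A`, so they are Gauss-integral;
* by QEP they lie in the finite chart; `β(j)` is a root of `Ψ`.
-/

set_option autoImplicit false
set_option linter.style.haveILetI false

open AlgebraicCurve ModularCurve IntermediateField Polynomial

noncomputable section

namespace Fermat.Agent.Red.KR

open Fermat.Agent.S37 Fermat.Agent.S37.GalI Fermat.Agent.Red.GV Fermat.Agent.S28

/-! ### Characteristic zero -/

/-- `j(q^ℓ)` is integral over `ℚ̄[j]`, in `ℚ̄((q))`. -/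
theorem h69m_int0 (ℓ : ℕ) [NeZero ℓ] :
    (evalC (jK Kbar)).IsIntegralElem (qExpand Kbar ℓ (jK Kbar)) := by
  obtain ⟨P, hP, hz⟩ := me0 ℓ (Nat.pos_of_ne_zero (NeZero.ne ℓ))
  have hj : jSub ℓ = qExpand ℚ ℓ jq := by
    unfold jSub
    rw [dif_neg (NeZero.ne ℓ)]
  have hcomp : (coeffEmb Kbar).comp (evalAtQ jq) =
      (evalC (jK Kbar)).comp (Polynomial.mapRingHom (algebraMap ℚ Kbar)) := by
    refine RingHom.ext fun Q => ?_
    rw [RingHom.comp_apply, RingHom.comp_apply, Fermat.Agent.Red.GV.Rep.h71_coeffEmb_evalAtQ,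
      Fermat.Agent.Red.GV.Rep.h71_coeffEmb_jq]
    rfl
  have hx : coeffEmb Kbar (jSub ℓ) = qExpand Kbar ℓ (jK Kbar) := by
    rw [hj, ← Fermat.Agent.Red.GV.Rep.h71_coeffEmb_jq Kbar]
    exact ModularCurve.coeffMap_qExpand _ ℓ jq
  refine ⟨P.map (Polynomial.mapRingHom (algebraMap ℚ Kbar)), hP.map _, ?_⟩
  rw [Polynomial.eval₂_map, ← hcomp, ← hx, ← Polynomial.hom_eval₂, hz, map_zero]

/-! ### Cayley–Hamilton along a homomorphism -/

theorem h69m_eval₂_charpolyAlong {K F F' : Type*} [Field K] [Field F] [Field F'] [Algebra K F]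
    [Algebra K F'] (φ : F →ₐ[K] F') (hfin : FiniteAlong K φ) (g : F') :
    Polynomial.eval₂ (φ : F →+* F') g (Fermat.Agent.Red.TRK.charpolyAlong φ hfin g) = 0 := by
  letI := algebraAlong φ
  haveI : Module.Finite F F' := hfin
  have h := LinearMap.aeval_self_charpoly (LinearMap.mulLeft F g)
  have h1 : LinearMap.mulLeft F g = Algebra.lmul F F' g := rfl
  rw [h1, Polynomial.aeval_algHom_apply] at h
  have h2 := congrArg (fun T : Module.End F F' => T 1) h
  have h3 : Polynomial.aeval g (LinearMap.mulLeft F g).charpoly * 1 = 0 := h2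
  rw [mul_one] at h3
  exact h3

/-! ### The coefficients of `Ψ` -/

/-- integrality over `ℚ̄[t]` is integrality over `⊤[t]`. -/
theorem h69m_top_of_intK (t : LaurentSeries Kbar) {x : LaurentSeries Kbar}
    (hx : (evalC t).IsIntegralElem x) :
    (evalA (⊤ : ValuationSubring Kbar) t).IsIntegralElem x := by
  obtain ⟨P, hP, hPx⟩ := hx
  have hs : Function.Surjective (Polynomial.mapRingHom (⊤ : ValuationSubring Kbar).subtype) :=
    Polynomial.map_surjective _ (fun a => ⟨⟨a, trivial⟩, rfl⟩)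
  obtain ⟨P', hP', -, hP'm⟩ := Polynomial.lifts_and_degree_eq_and_monic
    ((Polynomial.mem_lifts P).2 (Polynomial.map_surjective _ hs P)) hP
  refine ⟨P', hP'm, ?_⟩
  rw [Fermat.Agent.Red.BC.h58_evalA_eq_comp, ← Polynomial.eval₂_map, hP']
  exact hPx

section Coeff

variable (N ℓ : ℕ) [NeZero N] [NeZero ℓ]

/-- the characteristic polynomial of `β(j)` over `F_N` along `α`. -/
def h69m_Psi : Polynomial (FF N) :=
  Fermat.Agent.Red.TRK.charpolyAlong (heckeAlphaBar Kbar N ℓ)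
    (Fermat.Agent.Red.HKMod.finiteAlong_heckeAlphaBar N ℓ) (heckeBetaBar Kbar N ℓ (jB N))

theorem h69m_coe_beta_j :
    ((heckeBetaBar Kbar N ℓ (jB N) : FF (N * ℓ)) : LaurentSeries Kbar) =
      qExpand Kbar ℓ (jK Kbar) := by
  rw [coe_heckeBetaBar, coe_jB]

/-- the coefficients of `Ψ` are integral over `ℚ̄[j]`. -/
theorem h69m_coeff_intK (m : ℕ) :
    (evalC (jK Kbar)).IsIntegralElem (((h69m_Psi N ℓ).coeff m : FF N) : LaurentSeries Kbar) := by
  have hb : heckeBetaBar Kbar N ℓ (jB N) ∈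
      modelAt (N * ℓ) (⊤ : ValuationSubring Kbar) (heckeAlphaBar Kbar N ℓ (jB N)) := by
    rw [Fermat.Agent.Red.HKMod.heckeAlphaBar_jBar, mem_modelAt_iff, h69m_coe_beta_j]
    have : ((Fermat.Agent.S24.jBar (N * ℓ) : FF (N * ℓ)) : LaurentSeries Kbar) = jK Kbar :=
      coe_jB (N * ℓ)
    rw [this]
    exact h69m_top_of_intK _ (h69m_int0 ℓ)
  have h := Fermat.Agent.Red.TRK.h87_coeff_mem_modelAt (heckeAlphaBar Kbar N ℓ)
    (Fermat.Agent.Red.HKMod.finiteAlong_heckeAlphaBar N ℓ) ⊤ (jB N) hb m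
  rw [mem_modelAt_iff, coe_jB] at h
  exact Fermat.Agent.Red.BC.h58_intK_of_int _ _ h

variable {ℓ} in
/-- after scaling by a power of `ℓ` the coefficients of `Ψ` lie in the finite chart. -/
theorem h69m_coeff_scaled (hℓ : ℓ.Prime) (A : ValuationSubring Kbar) (hA : A.LiesOverPrime ℓ)
    (m : ℕ) : ∃ n : ℕ, cst N ((ℓ : Kbar) ^ n) * (h69m_Psi N ℓ).coeff m ∈ modelFin N A := by
  obtain ⟨n, hn⟩ := Fermat.Agent.Red.BC.h58_scaling A ℓ hℓ hA (jK Kbar) (h69m_coeff_intK N ℓ m)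
  refine ⟨n, ?_⟩
  rw [mem_modelFin_iff]
  have h1 : ((cst N ((ℓ : Kbar) ^ n) * (h69m_Psi N ℓ).coeff m : FF N) : LaurentSeries Kbar) =
      ((cst N ((ℓ : Kbar) ^ n) : FF N) : LaurentSeries Kbar) *
        (((h69m_Psi N ℓ).coeff m : FF N) : LaurentSeries Kbar) := rfl
  rw [h1, coe_cst]
  exact hn

/-- the `q`-expansion of `j` has coefficients in `A`. -/
theorem h69m_jK_coeff_mem (A : ValuationSubring Kbar) (n : ℤ) : (jK Kbar).coeff n ∈ A :=
  (exists_embA_eq_iff A (jK Kbar)).1 ⟨_, embA_jqModC A⟩ n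

variable {ℓ} in
/-- the coefficients of `Ψ` have `q`-expansion coefficients in `A`. -/
theorem h69m_coeff_embA (hℓ : ℓ.Prime) (hN : ¬ ℓ ∣ N) (A : ValuationSubring Kbar) (m : ℕ) :
    ∃ y : LaurentSeries A,
      embA A y = (((h69m_Psi N ℓ).coeff m : FF N) : LaurentSeries Kbar) := by
  haveI : NeZero ((ℓ : ℕ) : Kbar) := ⟨by exact_mod_cast NeZero.ne ℓ⟩
  obtain ⟨ζ, hζ⟩ := HasEnoughRootsOfUnity.exists_primitiveRoot Kbar ℓ
  have hprod := Fermat.Agent.Red.Kron.charpolyAlong_alpha_beta N ℓ hℓ hN ζ hζ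
    (Fermat.Agent.Red.HKMod.finiteAlong_heckeAlphaBar N ℓ) (jB N)
  rw [coe_jB] at hprod
  -- the factors have coefficients in `A`
  obtain ⟨y0, hy0⟩ : ∃ y, embA A y = qExpand Kbar (ℓ * ℓ) (jK Kbar) := by
    rw [exists_embA_eq_iff]
    intro n
    by_cases hn : ((ℓ * ℓ : ℕ) : ℤ) ∣ n
    · obtain ⟨k, rfl⟩ := hn
      rw [qExpand_coeff_mul]
      exact h69m_jK_coeff_mem A k
    · rw [qExpand_coeff_of_not_dvd (ℓ * ℓ) _ hn]
      exact A.zero_mem
  have hy : ∀ b : ℕ, ∃ y, embA A y = Fermat.Agent.Red.Kron.twistK (ζ ^ b) (jK Kbar) := by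
    intro b
    rw [exists_embA_eq_iff]
    intro n
    rw [Fermat.Agent.Red.Kron.coeff_twistK]
    refine A.mul_mem _ _ (h69m_jK_coeff_mem A n) ?_
    apply Fermat.Agent.Red.ESTF.h76_root_mem A (NeZero.ne ℓ)
    have h1 : (ζ ^ b) ^ ℓ = 1 := by
      rw [← pow_mul, mul_comm, pow_mul, hζ.pow_eq_one, one_pow]
    rw [← zpow_natCast, ← zpow_mul, mul_comm, zpow_mul, zpow_natCast, h1, one_zpow]
  choose y hy using hy
  set Q : Polynomial (LaurentSeries A) :=
    (X - C y0) * ∏ b ∈ Finset.range ℓ, (X - C (y b)) with hQ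
  have hQmap : Q.map (embA A) =
      (Fermat.Agent.Red.TRK.charpolyAlong (heckeAlphaBar Kbar N ℓ)
        (Fermat.Agent.Red.HKMod.finiteAlong_heckeAlphaBar N ℓ)
        (heckeBetaBar Kbar N ℓ (jB N))).map (Fermat.Agent.Red.Kron.kIotaK N ℓ) := by
    rw [hprod, hQ, Polynomial.map_mul, Polynomial.map_prod, Polynomial.map_sub,
      Polynomial.map_X, Polynomial.map_C, hy0]
    congr 1
    refine Finset.prod_congr rfl fun b _ => ?_
    rw [Polynomial.map_sub, Polynomial.map_X, Polynomial.map_C, hy b]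
  have hcoef : qExpand Kbar ℓ (((h69m_Psi N ℓ).coeff m : FF N) : LaurentSeries Kbar) =
      embA A (Q.coeff m) := by
    have := congrArg (fun p => Polynomial.coeff p m) hQmap
    simp only [Polynomial.coeff_map] at this
    rw [this]
    rfl
  rw [exists_embA_eq_iff]
  intro n
  rw [← qExpand_coeff_mul (N := ℓ), hcoef, h36_embA_coeff]
  exact (Q.coeff m).coeff _ |>.2

variable {ℓ} in
/-- **the coefficients of `Ψ` lie in the finite chart.** -/
theorem h69m_coeff_mem (hℓ : ℓ.Prime) (hN : ¬ ℓ ∣ N) (A : ValuationSubring Kbar)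
    (hA : A.LiesOverPrime ℓ) (m : ℕ) : (h69m_Psi N ℓ).coeff m ∈ modelFin N A := by
  obtain ⟨n, hn⟩ := h69m_coeff_scaled N hℓ A hA m
  obtain ⟨y, hy⟩ := h69m_coeff_embA N hℓ hN A m
  have hG : (h69m_Psi N ℓ).coeff m ∈ gaussV A N :=
    mem_gaussSubring_of_embA A _ N _ y hy
  have hℓ0 : ((ℓ : Kbar) ^ n) ≠ 0 := pow_ne_zero _ (by exact_mod_cast NeZero.ne ℓ)
  exact mem_modelFin_of_cst_mul A N hℓ hN hA _ hG _ (A.pow_mem (natCast_mem A ℓ) n) hℓ0 hn

end Coeff

/-! ### Roots of monic polynomials with coefficients in a chart -/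

set_option synthInstance.maxHeartbeats 400000 in
/-- a root of a monic polynomial with coefficients in a chart lies in the chart. -/
theorem h69m_mem_modelAt_of_root {M : ℕ} (A : ValuationSubring Kbar) (t : FF M)
    (p : Polynomial (FF M)) (hp : p.Monic) (hc : ∀ m, p.coeff m ∈ modelAt M A t) (b : FF M)
    (hb : p.eval b = 0) : b ∈ modelAt M A t := by
  have hlift : p ∈ Polynomial.lifts
      (algebraMap (integralClosure (ringAdj M A t) (FF M)) (FF M)) := by
    rw [Polynomial.lifts_iff_coeff_lifts]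
    intro m
    exact ⟨⟨p.coeff m, hc m⟩, rfl⟩
  obtain ⟨q, hq, -, hqm⟩ := Polynomial.lifts_and_degree_eq_and_monic hlift hp
  have hint : IsIntegral (integralClosure (ringAdj M A t) (FF M)) b := by
    refine ⟨q, hqm, ?_⟩
    rw [← Polynomial.eval_map, hq]
    exact hb
  exact isIntegral_trans (R := ringAdj M A t) (A := integralClosure (ringAdj M A t) (FF M)) b hint

/-- **ME-α**: `j(q^ℓ)` is integral over `A[j]`. -/
theorem meAlpha : MEAlphaStatement := by
  intro N ℓ _ _ hℓ hN A hA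
  have hfin := Fermat.Agent.Red.HKMod.finiteAlong_heckeAlphaBar N ℓ
  have hroot := h69m_eval₂_charpolyAlong (heckeAlphaBar Kbar N ℓ) hfin
    (heckeBetaBar Kbar N ℓ (jB N))
  have hmon : ((h69m_Psi N ℓ).map (heckeAlphaBar Kbar N ℓ : FF N →+* FF (N * ℓ))).Monic :=
    (Fermat.Agent.Red.TRK.charpolyAlong_monic _ hfin _).map _
  have hj : heckeAlphaBar Kbar N ℓ (jB N) = jB (N * ℓ) :=
    Fermat.Agent.Red.HKMod.heckeAlphaBar_jBar N ℓ
  refine h69m_mem_modelAt_of_root A (jB (N * ℓ)) _ hmon (fun m => ?_) _ ?_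
  · rw [Polynomial.coeff_map, ← hj]
    exact map_mem_modelAt (heckeAlphaBar Kbar N ℓ) A (h69m_coeff_mem N hℓ hN A hA m)
  · rw [Polynomial.eval_map]
    exact hroot

end Fermat.Agent.Red.KR
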