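import Fermat.Agent.Red.KR.Skel2
import Fermat.Agent.Red.Kron.Fricke

/-!
# P-RED, module R-KR, leaves ME-β and NBR

* `meBeta (h : MEAlphaStatement) : MEBetaStatement` : `j` is integral over `A[j(q^ℓ)]`, by
  transport of ME-α along the Fricke involution.
* `nbr (h : MEAlphaStatement) : NbrStatement` : a place of `F_{Nℓ}` is finite along `α` iff it is
  finite along `β`.
-/

set_option autoImplicit false

open AlgebraicCurve ModularCurve IntermediateField Polynomial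

noncomputable section

namespace Fermat.Agent.Red.KR

open Fermat.Agent.S37 Fermat.Agent.S37.GalI

/-- **ME-β.** -/
theorem meBeta (h : MEAlphaStatement) : MEBetaStatement := by
  intro N ℓ _ _ hℓ hN A hA
  have h1 : heckeBetaBar Kbar N ℓ (jB N) ∈ modelAt (N * ℓ) A (jB (N * ℓ)) := h N ℓ hℓ hN A hA
  have h2 := map_mem_modelAt
    ((Fermat.Agent.Red.Kron.kFricke N ℓ hℓ hN : FF (N * ℓ) ≃ₐ[Kbar] FF (N * ℓ)) :
      FF (N * ℓ) →ₐ[Kbar] FF (N * ℓ)) A h1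
  have e1 : ((Fermat.Agent.Red.Kron.kFricke N ℓ hℓ hN : FF (N * ℓ) ≃ₐ[Kbar] FF (N * ℓ)) :
      FF (N * ℓ) →ₐ[Kbar] FF (N * ℓ)) (heckeBetaBar Kbar N ℓ (jB N)) = jB (N * ℓ) := by
    rw [AlgEquiv.coe_toAlgHom, Fermat.Agent.Red.Kron.kFricke_beta]
    exact Fermat.Agent.Red.HKMod.heckeAlphaBar_jBar N ℓ
  have e2 : ((Fermat.Agent.Red.Kron.kFricke N ℓ hℓ hN : FF (N * ℓ) ≃ₐ[Kbar] FF (N * ℓ)) :
      FF (N * ℓ) →ₐ[Kbar] FF (N * ℓ)) (jB (N * ℓ)) = heckeBetaBar Kbar N ℓ (jB N) := by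
    have e3 : jB (N * ℓ) = heckeAlphaBar Kbar N ℓ (jB N) :=
      (Fermat.Agent.Red.HKMod.heckeAlphaBar_jBar N ℓ).symm
    rw [AlgEquiv.coe_toAlgHom, e3, Fermat.Agent.Red.Kron.kFricke_alpha]
  rw [e1, e2] at h2
  exact h2

/-- **NBR.** -/
theorem nbr (h : MEAlphaStatement) : NbrStatement := by
  intro N ℓ _ _ hℓ hN A hA hα hβ w
  have hA1 : heckeBetaBar Kbar N ℓ (jB N) ∈ modelAt (N * ℓ) A (jB (N * ℓ)) := h N ℓ hℓ hN A hA
  have hB1 : jB (N * ℓ) ∈ modelAt (N * ℓ) A (heckeBetaBar Kbar N ℓ (jB N)) :=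
    meBeta h N ℓ hℓ hN A hA
  have ej : heckeAlphaBar Kbar N ℓ (jB N) = jB (N * ℓ) :=
    Fermat.Agent.Red.HKMod.heckeAlphaBar_jBar N ℓ
  constructor
  · rintro ⟨a, ha, hva⟩
    have hva' : ValueAt w (jB (N * ℓ)) a := by
      have := (Fermat.Agent.Red.TRK.h87_valueAt_restrict (heckeAlphaBar Kbar N ℓ) hα w
        (jB N) a).mp hva
      rwa [ej] at this
    obtain ⟨b, hb, hvb⟩ := chart_value A w ha hva' hA1
    exact ⟨b, hb, (Fermat.Agent.Red.TRK.h87_valueAt_restrict (heckeBetaBar Kbar N ℓ) hβ w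
      (jB N) b).mpr hvb⟩
  · rintro ⟨a, ha, hva⟩
    have hva' : ValueAt w (heckeBetaBar Kbar N ℓ (jB N)) a :=
      (Fermat.Agent.Red.TRK.h87_valueAt_restrict (heckeBetaBar Kbar N ℓ) hβ w (jB N) a).mp hva
    obtain ⟨b, hb, hvb⟩ := chart_value A w ha hva' hB1
    refine ⟨b, hb, (Fermat.Agent.Red.TRK.h87_valueAt_restrict (heckeAlphaBar Kbar N ℓ) hα w
      (jB N) b).mpr ?_⟩
    rw [ej]
    exact hvb

end Fermat.Agent.Red.KR
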