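import Fermat.Agent.Red.KR.Skel

/-!
# P-RED, module R-KR, leaves REFLECT and MULT (Mathlib only)

* `reflect : ReflectStatement` : if `Y` is integral over `A[J]` then `s(1/Y) · (1/J)` is integral
  over `A[1/Y]` for some `s ∈ A[T]` with `s(0) = 1`.
* `mult : MultStatement` : if `s(V) · U` is integral over `A[V]` and `f` is integral over `A[U]`
  then `s(V) ^ E · f` is integral over `A[V]` for some `E`.
-/

set_option autoImplicit false

open Polynomial

noncomputable section

namespace Fermat.Agent.Red.KR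

/-! ## REFLECT -/

/-- `x ^ k * (x⁻¹) ^ D = (x⁻¹) ^ (D - k)` for `k ≤ D`, `x ≠ 0`. -/
theorem h40kr_pow_mul_inv_pow {L : Type*} [Field L] {x : L} (hx : x ≠ 0) {k D : ℕ}
    (hk : k ≤ D) : x ^ k * x⁻¹ ^ D = x⁻¹ ^ (D - k) := by
  have h1 : x⁻¹ ^ D = x⁻¹ ^ (D - k) * x⁻¹ ^ k := by rw [← pow_add, Nat.sub_add_cancel hk]
  rw [h1, mul_comm, mul_assoc, ← mul_pow, inv_mul_cancel₀ hx, one_pow, mul_one]

section Reflect

variable {A L : Type*} [CommRing A] [Field L] (ι : A →+* L)

/-- the bi-reversed polynomial: `R(T, Z) = T^n Z^D p(1/Z, 1/T)` (with `X ↔ 1/T`, `T ↔ 1/Z`). -/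
def h40kr_rev (p : Polynomial (Polynomial A)) (n D : ℕ) : Polynomial (Polynomial A) :=
  ∑ i ∈ Finset.range (n + 1), ∑ k ∈ Finset.range (D + 1),
    C (C ((p.coeff i).coeff k) * X ^ (n - i)) * X ^ (D - k)

/-- the coefficient of `Z^D` in the bi-reversed polynomial. -/
def h40kr_lead (p : Polynomial (Polynomial A)) (n : ℕ) : Polynomial A :=
  ∑ i ∈ Finset.range (n + 1), C ((p.coeff i).coeff 0) * X ^ (n - i)

theorem h40kr_rev_coeff (p : Polynomial (Polynomial A)) (n D : ℕ) :
    (h40kr_rev p n D).coeff D = h40kr_lead p n := by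
  rw [h40kr_rev, h40kr_lead, finsetSum_coeff]
  refine Finset.sum_congr rfl fun i _ => ?_
  rw [finsetSum_coeff]
  rw [Finset.sum_eq_single 0]
  · rw [Nat.sub_zero, coeff_C_mul, coeff_X_pow, if_pos rfl, mul_one]
  · intro k hk hk0
    rw [coeff_C_mul, coeff_X_pow, if_neg, mul_zero]
    have hkD : k ≤ D := Nat.lt_succ_iff.mp (Finset.mem_range.mp hk)
    omega
  · intro h
    exact absurd (Finset.mem_range.mpr (Nat.succ_pos D)) h

theorem h40kr_rev_natDegree_le (p : Polynomial (Polynomial A)) (n D : ℕ) :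
    (h40kr_rev p n D).natDegree ≤ D := by
  rw [h40kr_rev]
  refine natDegree_sum_le_of_forall_le _ _ fun i _ => ?_
  refine natDegree_sum_le_of_forall_le _ _ fun k _ => ?_
  exact (natDegree_C_mul_X_pow_le _ _).trans (Nat.sub_le D k)

theorem h40kr_lead_coeff_zero (p : Polynomial (Polynomial A)) (n : ℕ)
    (hn : (p.coeff n).coeff 0 = 1) : (h40kr_lead p n).coeff 0 = 1 := by
  rw [h40kr_lead, finsetSum_coeff]
  rw [Finset.sum_eq_single n]
  · rw [Nat.sub_self, pow_zero, mul_one, coeff_C_zero, hn]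
  · intro i hi hin
    rw [coeff_C_mul, coeff_X_pow, if_neg, mul_zero]
    have hi' : i ≤ n := Nat.lt_succ_iff.mp (Finset.mem_range.mp hi)
    omega
  · intro h
    exact absurd (Finset.mem_range.mpr (Nat.lt_succ_self n)) h

theorem h40kr_rev_eval (p : Polynomial (Polynomial A)) (n D : ℕ) {J Y : L} (hJ : J ≠ 0)
    (hY : Y ≠ 0) (hn : p.natDegree ≤ n) (hD : ∀ i, (p.coeff i).natDegree ≤ D) :
    eval₂ (eval₂RingHom ι Y⁻¹) J⁻¹ (h40kr_rev p n D) =
      J⁻¹ ^ D * Y⁻¹ ^ n * eval₂ (eval₂RingHom ι J) Y p := by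
  have h1 : eval₂ (eval₂RingHom ι J) Y p =
      ∑ i ∈ Finset.range (n + 1), ∑ k ∈ Finset.range (D + 1),
        ι ((p.coeff i).coeff k) * J ^ k * Y ^ i := by
    rw [eval₂_eq_sum_range' (eval₂RingHom ι J) (Nat.lt_succ_of_le hn) Y]
    refine Finset.sum_congr rfl fun i _ => ?_
    rw [coe_eval₂RingHom, eval₂_eq_sum_range' ι (Nat.lt_succ_of_le (hD i)) J, Finset.sum_mul]
  rw [h1, h40kr_rev, eval₂_finsetSum, Finset.mul_sum]
  refine Finset.sum_congr rfl fun i hi => ?_
  rw [eval₂_finsetSum, Finset.mul_sum]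
  refine Finset.sum_congr rfl fun k hk => ?_
  have hi' : i ≤ n := Nat.lt_succ_iff.mp (Finset.mem_range.mp hi)
  have hk' : k ≤ D := Nat.lt_succ_iff.mp (Finset.mem_range.mp hk)
  rw [eval₂_mul, eval₂_C, eval₂_X_pow, coe_eval₂RingHom, eval₂_mul, eval₂_C, eval₂_X_pow,
    ← h40kr_pow_mul_inv_pow hJ hk', ← h40kr_pow_mul_inv_pow hY hi']
  ring

end Reflect

/-- **REFLECT.** -/
theorem reflect : ReflectStatement := by
  intro A L _ _ ι J Y hJ hY hint
  obtain ⟨p, hp, hpe⟩ := hint
  have : Nontrivial A := by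
    refine ⟨⟨0, 1, fun h => ?_⟩⟩
    have := congrArg ι h
    rw [map_zero, map_one] at this
    exact zero_ne_one this
  set n := p.natDegree with hn
  set D := (Finset.range (n + 1)).sup (fun i => (p.coeff i).natDegree) with hDdef
  have hD : ∀ i, (p.coeff i).natDegree ≤ D := by
    intro i
    by_cases hi : i ≤ n
    · exact Finset.le_sup (f := fun i => (p.coeff i).natDegree)
        (Finset.mem_range.mpr (Nat.lt_succ_of_le hi))
    · rw [coeff_eq_zero_of_natDegree_lt (not_le.mp hi), natDegree_zero]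
      exact Nat.zero_le _
  have hlead1 : (p.coeff n).coeff 0 = 1 := by
    rw [hn, coeff_natDegree, hp.leadingCoeff, coeff_one_zero]
  have hs0 : (h40kr_lead p n).coeff 0 = 1 := h40kr_lead_coeff_zero p n hlead1
  have hsne : h40kr_lead p n ≠ 0 := by
    intro h
    rw [h, coeff_zero] at hs0
    exact zero_ne_one hs0
  have hdeg : (h40kr_rev p n D).natDegree = D := by
    refine le_antisymm (h40kr_rev_natDegree_le p n D) ?_
    refine le_natDegree_of_ne_zero ?_
    rw [h40kr_rev_coeff]
    exact hsne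
  have hlc : (h40kr_rev p n D).leadingCoeff = h40kr_lead p n := by
    rw [leadingCoeff, hdeg, h40kr_rev_coeff]
  have hzero : eval₂ (eval₂RingHom ι Y⁻¹) J⁻¹ (h40kr_rev p n D) = 0 := by
    rw [h40kr_rev_eval ι p n D hJ hY le_rfl hD, hpe, mul_zero]
  refine ⟨h40kr_lead p n, hs0, ?_⟩
  have h := RingHom.isIntegralElem_leadingCoeff_mul (eval₂RingHom ι Y⁻¹) (h40kr_rev p n D) J⁻¹ hzero
  rw [hlc, coe_eval₂RingHom] at h
  exact h

/-! ## MULT -/

section Mult

variable {A L : Type*} [CommRing A] [Field L] (ι : A →+* L)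

/-- `h(U) · s(V)^E` is integral over `A[V]` when `s(V) · U` is and `deg h ≤ E`. -/
theorem h40kr_coeff_integral (U V : L) (s : Polynomial A)
    (hsU : (eval₂RingHom ι V).IsIntegralElem (eval₂ ι V s * U)) (E : ℕ) (h : Polynomial A)
    (hE : h.natDegree ≤ E) :
    (eval₂RingHom ι V).IsIntegralElem (eval₂ ι U h * eval₂ ι V s ^ E) := by
  let _ : Algebra (Polynomial A) L := (eval₂RingHom ι V).toAlgebra
  have hmap : ∀ x : Polynomial A, algebraMap (Polynomial A) L x = eval₂ ι V x := fun _ => rfl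
  change IsIntegral (Polynomial A) (eval₂ ι U h * eval₂ ι V s ^ E)
  have hsU' : IsIntegral (Polynomial A) (eval₂ ι V s * U) := hsU
  have hsV : IsIntegral (Polynomial A) (eval₂ ι V s) := by
    rw [← hmap]
    exact isIntegral_algebraMap
  rw [eval₂_eq_sum_range' ι (Nat.lt_succ_of_le hE) U, Finset.sum_mul]
  refine IsIntegral.sum _ fun k hk => ?_
  have hk' : k ≤ E := Nat.lt_succ_iff.mp (Finset.mem_range.mp hk)
  have e : ι (h.coeff k) * U ^ k * eval₂ ι V s ^ E =
      algebraMap (Polynomial A) L (C (h.coeff k)) * (eval₂ ι V s ^ (E - k) *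
        (eval₂ ι V s * U) ^ k) := by
    rw [hmap, eval₂_C, mul_pow, ← mul_assoc (eval₂ ι V s ^ (E - k)), ← pow_add,
      Nat.sub_add_cancel hk']
    ring
  rw [e]
  exact isIntegral_algebraMap.mul ((hsV.pow _).mul (hsU'.pow _))

end Mult

/-- **MULT.** -/
theorem mult : MultStatement := by
  intro A L _ _ ι U V s hsU f hf
  obtain ⟨g, hg, hgf⟩ := hf
  let _ : Algebra (Polynomial A) L := (eval₂RingHom ι V).toAlgebra
  have hmap : ∀ x : Polynomial A, algebraMap (Polynomial A) L x = eval₂ ι V x := fun _ => rfl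
  set m := g.natDegree with hm
  set E := (Finset.range (m + 1)).sup (fun i => (g.coeff i).natDegree) with hEdef
  have hE : ∀ i, (g.coeff i).natDegree ≤ E := by
    intro i
    by_cases hi : i ≤ m
    · exact Finset.le_sup (f := fun i => (g.coeff i).natDegree)
        (Finset.mem_range.mpr (Nat.lt_succ_of_le hi))
    · rw [coeff_eq_zero_of_natDegree_lt (not_le.mp hi), natDegree_zero]
      exact Nat.zero_le _
  refine ⟨E, ?_⟩
  change IsIntegral (Polynomial A) (eval₂ ι V s ^ E * f)
  have hsV : IsIntegral (Polynomial A) (eval₂ ι V s) := by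
    rw [← hmap]
    exact isIntegral_algebraMap
  -- the polynomial over `L` with root `f`
  set g' : Polynomial L := g.map (eval₂RingHom ι U) with hg'
  have hg'm : g'.Monic := hg.map _
  have hg'deg : g'.natDegree = m := hg.natDegree_map _
  have hg'f : eval f g' = 0 := by rw [hg', eval_map]; exact hgf
  -- scale the roots
  set G : Polynomial L := scaleRoots g' (eval₂ ι V s ^ E) with hG
  have hGm : G.Monic := (monic_scaleRoots_iff _).mpr hg'm
  have hGroot : eval (eval₂ ι V s ^ E * f) G = 0 := by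
    rw [hG, scaleRoots_eval_mul, hg'f, mul_zero]
  have hGcoeff : ∀ i, G.coeff i ∈ (integralClosure (Polynomial A) L).toSubring := by
    intro i
    change IsIntegral (Polynomial A) (G.coeff i)
    rw [hG, coeff_scaleRoots, hg'deg, hg', coeff_map, coe_eval₂RingHom]
    rcases lt_trichotomy i m with hi | hi | hi
    · have e : (eval₂ ι V s ^ E) ^ (m - i) =
          eval₂ ι V s ^ E * (eval₂ ι V s ^ E) ^ (m - i - 1) := by
        rw [← pow_succ', Nat.sub_add_cancel (Nat.le_sub_of_add_le (by omega))]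
      rw [e, ← mul_assoc]
      have h1 : IsIntegral (Polynomial A) (eval₂ ι U (g.coeff i) * eval₂ ι V s ^ E) :=
        h40kr_coeff_integral ι U V s hsU E (g.coeff i) (hE i)
      exact h1.mul ((hsV.pow _).pow _)
    · rw [hi, Nat.sub_self, pow_zero, mul_one, hm, coeff_natDegree, hg.leadingCoeff, eval₂_one]
      exact isIntegral_one
    · rw [coeff_eq_zero_of_natDegree_lt (hm ▸ hi), eval₂_zero, zero_mul]
      exact isIntegral_zero
  -- lift to the integral closure
  have hsub : (↑G.coeffs : Set L) ⊆ ↑(integralClosure (Polynomial A) L).toSubring := by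
    intro c hc
    obtain ⟨i, -, rfl⟩ := (Polynomial.mem_coeffs_iff).mp (Finset.mem_coe.mp hc)
    exact hGcoeff i
  have hint : IsIntegral (integralClosure (Polynomial A) L) (eval₂ ι V s ^ E * f) := by
    refine ⟨G.toSubring (integralClosure (Polynomial A) L).toSubring hsub, ?_, ?_⟩
    · exact (monic_toSubring _ _ _).mpr hGm
    · rw [← eval_map]
      have h1 : (G.toSubring (integralClosure (Polynomial A) L).toSubring hsub).map
          (algebraMap (integralClosure (Polynomial A) L) L) = G :=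
        map_toSubring G (integralClosure (Polynomial A) L).toSubring hsub
      rw [h1]
      exact hGroot
  exact isIntegral_trans _ hint

end Fermat.Agent.Red.KR
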