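import Fermat.Agent.Red.KR.Skel
import Fermat.Agent.Red.GV.BarGalois
import Fermat.Agent.Red.MatchLoc
import Fermat.Agent.S18.ResAlgClosed
import Fermat.Agent.Bridge.Frobenius
import Fermat.Agent.Red.Kron.Finrank

/-!
# P-RED, module R-KR (helper90): basic lemmas

* `map_mem_modelAt`, `gal_mem_modelAt` : charts are mapped to charts.
* `normAlong`, `normAlong_sub_eq_eval` : the norm along a homomorphism and the characteristic
  polynomial.
* `RedZero` : the maximal ideal of the Gauss valuation.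
* `redZero_norm_sub` : the Kronecker congruence for norms, without scaling.
-/

set_option autoImplicit false
set_option linter.style.haveILetI false

open AlgebraicCurve ModularCurve IntermediateField Polynomial

noncomputable section

namespace Fermat.Agent.Red.KR

open Fermat.Agent.S37 Fermat.Agent.S37.GalI Fermat.Agent.Red.GV

/-! ### Charts -/

section Charts

variable {N M : ℕ}

theorem mem_modelAt_iff_evalF (A : ValuationSubring Kbar) (t x : FF M) :
    x ∈ modelAt M A t ↔ (evalF M A t).IsIntegralElem x := by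
  rw [mem_modelAt_iff, isIntegralElem_evalF_iff]

theorem comp_evalF (φ : FF N →ₐ[Kbar] FF M) (A : ValuationSubring Kbar) (t : FF N) :
    φ.toRingHom.comp (evalF N A t) = evalF M A (φ t) := by
  apply Polynomial.ringHom_ext
  · intro a
    simp [evalF]
  · simp [evalF]

/-- algebra homomorphisms map charts to charts. -/
theorem map_mem_modelAt (φ : FF N →ₐ[Kbar] FF M) (A : ValuationSubring Kbar) {t x : FF N}
    (hx : x ∈ modelAt N A t) : φ x ∈ modelAt M A (φ t) := by
  rw [mem_modelAt_iff_evalF] at hx ⊢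
  obtain ⟨p, hp, hpx⟩ := hx
  refine ⟨p, hp, ?_⟩
  rw [← comp_evalF φ A t]
  have h := Polynomial.hom_eval₂ p (evalF N A t) φ.toRingHom x
  rw [hpx, map_zero] at h
  exact h.symm

/-- the Galois action of the decomposition group maps charts to charts. -/
theorem gal_mem_modelAt (A : ValuationSubring Kbar) {σ : GQ}
    (hσ : σ ∈ A.decompositionSubgroup ℚ) {t x : FF N} (hx : x ∈ modelAt N A t) :
    gal N σ • x ∈ modelAt N A (gal N σ • t) := by
  rw [mem_modelAt_iff_evalF] at hx ⊢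
  obtain ⟨p, hp, hpx⟩ := hx
  let g : FF N →+* FF N := MulSemiringAction.toRingHom (SemilinearAut Kbar (FF N)) (FF N) (gal N σ)
  have hg : ∀ y, g y = gal N σ • y := fun _ => rfl
  have hcomp : g.comp (evalF N A t) =
      (evalF N A (gal N σ • t)).comp (Polynomial.mapRingHom (decompA A σ hσ)) := by
    apply Polynomial.ringHom_ext
    · intro a
      simp only [RingHom.comp_apply, evalF_C, hg, gal_smul_cst, Polynomial.coe_mapRingHom,
        Polynomial.map_C]
      rfl
    · simp only [RingHom.comp_apply, evalF_X, hg, Polynomial.coe_mapRingHom, Polynomial.map_X]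
  refine ⟨p.map (Polynomial.mapRingHom (decompA A σ hσ)), hp.map _, ?_⟩
  rw [Polynomial.eval₂_map, ← hcomp]
  have h := Polynomial.hom_eval₂ p (evalF N A t) g x
  rw [hpx, map_zero] at h
  exact h.symm

end Charts

/-! ### Norms along a homomorphism -/

section NormAlong

variable {K F F' : Type*} [Field K] [Field F] [Field F'] [Algebra K F] [Algebra K F']

/-- the norm along `φ : F → F'`. -/
def normAlong (φ : F →ₐ[K] F') (y : F') : F :=
  letI := algebraAlong φ
  Algebra.norm F y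

theorem normAlong_mul (φ : F →ₐ[K] F') (y z : F') :
    normAlong φ (y * z) = normAlong φ y * normAlong φ z := by
  letI := algebraAlong φ
  exact map_mul (Algebra.norm F) y z

theorem normAlong_map (φ : F →ₐ[K] F') (a : F) :
    normAlong φ (φ a) = a ^ finrankAlong K φ := by
  letI := algebraAlong φ
  exact Algebra.norm_algebraMap (S := F') a

theorem normAlong_zero (φ : F →ₐ[K] F') (hfin : FiniteAlong K φ) :
    normAlong φ (0 : F') = 0 := by
  letI := algebraAlong φ
  haveI : Module.Finite F F' := hfin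
  exact Algebra.norm_zero

theorem normAlong_sub_eq_eval (φ : F →ₐ[K] F') (hfin : FiniteAlong K φ) (a : F) (y : F') :
    normAlong φ (φ a - y) = (Fermat.Agent.Red.TRK.charpolyAlong φ hfin y).eval a := by
  letI := algebraAlong φ
  haveI : Module.Finite F F' := hfin
  have h := LinearMap.eval_charpoly (LinearMap.mulLeft F y) a
  have e : (algebraMap F (Module.End F F') a - LinearMap.mulLeft F y) =
      Algebra.lmul F F' (φ a - y) := by
    ext z
    simp only [LinearMap.sub_apply, Module.algebraMap_end_apply, LinearMap.mulLeft_apply]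
    change a • z - y * z = (φ a - y) * z
    rw [sub_mul]
    rfl
  rw [e] at h
  exact h.symm

end NormAlong

/-! ### Elements of the maximal ideal of the Gauss valuation -/

section RedZero

variable (A : ValuationSubring Kbar) (N : ℕ)

/-- `x` lies in the maximal ideal of the Gauss valuation. -/
def RedZero (x : FF N) : Prop :=
  ∃ h : x ∈ gaussV A N, gaussR A N ⟨x, h⟩ = 0

variable {A N}

theorem RedZero.mem {x : FF N} (h : RedZero A N x) : x ∈ gaussV A N := h.1

theorem redZero_zero : RedZero A N 0 := ⟨zero_mem _, map_zero _⟩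

theorem RedZero.add {x y : FF N} (hx : RedZero A N x) (hy : RedZero A N y) :
    RedZero A N (x + y) := by
  obtain ⟨h1, h2⟩ := hx
  obtain ⟨h3, h4⟩ := hy
  refine ⟨add_mem h1 h3, ?_⟩
  have e : (⟨x + y, add_mem h1 h3⟩ : gaussV A N) = ⟨x, h1⟩ + ⟨y, h3⟩ := rfl
  rw [e, map_add, h2, h4, add_zero]

theorem RedZero.neg {x : FF N} (hx : RedZero A N x) : RedZero A N (-x) := by
  obtain ⟨h1, h2⟩ := hx
  refine ⟨neg_mem h1, ?_⟩
  have e : (⟨-x, neg_mem h1⟩ : gaussV A N) = -⟨x, h1⟩ := rfl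
  rw [e, map_neg, h2, neg_zero]

theorem RedZero.sub {x y : FF N} (hx : RedZero A N x) (hy : RedZero A N y) :
    RedZero A N (x - y) := by
  rw [sub_eq_add_neg]
  exact hx.add hy.neg

theorem RedZero.mul_left {x y : FF N} (hx : RedZero A N x) (hy : y ∈ gaussV A N) :
    RedZero A N (x * y) := by
  obtain ⟨h1, h2⟩ := hx
  refine ⟨mul_mem h1 hy, ?_⟩
  have e : (⟨x * y, mul_mem h1 hy⟩ : gaussV A N) = ⟨x, h1⟩ * ⟨y, hy⟩ := rfl
  rw [e, map_mul, h2, zero_mul]

theorem RedZero.mul_right {x y : FF N} (hx : x ∈ gaussV A N) (hy : RedZero A N y) :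
    RedZero A N (x * y) := by
  rw [mul_comm]
  exact hy.mul_left hx

theorem redZero_cst {ℓ : ℕ} (hA : A.LiesOverPrime ℓ) {c : Kbar} (hc : c ∈ A.nonunits) :
    RedZero A N (cst N c) := by
  have hcst : cst N c ∈ gaussV A N :=
    (cst_mem_gaussV_iff A N hA c).2 (Fermat.Agent.S37.GalI.nonunits_le A hc)
  exact ⟨hcst, gaussR_cst_of_nonunit A N hA c hc hcst⟩

theorem redZero_of_congOne [NeZero N] {ℓ : ℕ} (hℓ : ℓ.Prime) (hN : ¬ ℓ ∣ N)
    (hA : A.LiesOverPrime ℓ) {w : FF N} (hw : CongOne A w) : RedZero A N (w - 1) := by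
  obtain ⟨hmem, hred⟩ := (congOne_iff_gaussR A N hℓ hN hA w).1 hw
  refine ⟨sub_mem hmem (one_mem _), ?_⟩
  have e : (⟨w - 1, sub_mem hmem (one_mem _)⟩ : gaussV A N) = ⟨w, hmem⟩ - 1 := rfl
  rw [e, map_sub, map_one, hred, sub_self]

end RedZero

/-! ### Units congruent to one -/

theorem one_not_mem_nonunits (A : ValuationSubring Kbar) : (1 : Kbar) ∉ A.nonunits := by
  rw [mem_nonunits_iff_inv A one_ne_zero, inv_one, not_not]
  exact A.one_mem

theorem one_add_nonunit {A : ValuationSubring Kbar} {x : Kbar} (hx : x - 1 ∈ A.nonunits) :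
    x ∈ A ∧ x ≠ 0 ∧ x⁻¹ ∈ A ∧ x⁻¹ - 1 ∈ A.nonunits := by
  have hxA : x ∈ A := by
    have := A.add_mem _ _ (nonunits_le A hx) A.one_mem
    simpa using this
  have hxu : x ∉ A.nonunits := by
    intro h
    have h1 : (1 : Kbar) ∈ A.nonunits := by
      have := sub_mem_nonunits A h hx
      simpa using this
    exact one_not_mem_nonunits A h1
  have hx0 : x ≠ 0 := by
    rintro rfl
    exact hxu (zero_mem_nonunits A)
  have hinv : x⁻¹ ∈ A := by
    by_contra h
    exact hxu ((mem_nonunits_iff_inv A hx0).2 h)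
  refine ⟨hxA, hx0, hinv, ?_⟩
  have e : x⁻¹ - 1 = -(x - 1) * x⁻¹ := by
    field_simp
    ring
  rw [e]
  exact mul_mem_nonunits_left A (neg_mem_nonunits A hx) hinv

/-! ### The Kronecker congruence for norms, without scaling -/

section Unscaled

variable {N : ℕ} [NeZero N] {ℓ : ℕ} [NeZero ℓ]

omit [NeZero N] in
theorem gal_smul_ne_zero (σ : GQ) {u : FF N} (hu : u ≠ 0) : gal N σ • u ≠ 0 := by
  intro h
  apply hu
  have := congrArg (fun y => (gal N σ)⁻¹ • y) h
  simpa using this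

/-- **the Kronecker congruence for norms**: `Norm_α (β u) ≡ σ u · (σ⁻¹ u)^ℓ` for the Gauss
valuation, for every Gauss-integral `u`. -/
theorem redZero_norm_sub (hF : IfaceCongFrobenius N) (hκ : KappaStatement)
    (hℓ : ℓ.Prime) (hN : ¬ ℓ ∣ N) (A : ValuationSubring Kbar) (hA : A.LiesOverPrime ℓ)
    (σ : GQ) (hσ : A.IsFrobeniusAt σ ℓ) (u : FF N) (hu : u ∈ gaussV A N) :
    RedZero A N (normAlong (heckeAlphaBar Kbar N ℓ) (heckeBetaBar Kbar N ℓ u) -
      gal N σ • u * (gal N σ⁻¹ • u) ^ ℓ) := by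
  have hσD : σ ∈ A.decompositionSubgroup ℚ := hσ.mem_decompositionSubgroup
  by_cases hu0 : u = 0
  · subst hu0
    rw [map_zero, normAlong_zero _ (Fermat.Agent.Red.HKMod.finiteAlong_heckeAlphaBar N ℓ),
      smul_zero, zero_mul, sub_zero]
    exact redZero_zero
  obtain ⟨c, hc, hW⟩ := hF ℓ hℓ hN A hA σ hσ u hu0
  change CongOne A (normAlong (heckeAlphaBar Kbar N ℓ) (heckeBetaBar Kbar N ℓ (cst N c * u)) /
    (gal N σ • (cst N c * u) * (gal N σ⁻¹ • (cst N c * u)) ^ ℓ)) at hW
  set ν := normAlong (heckeAlphaBar Kbar N ℓ) (heckeBetaBar Kbar N ℓ u) with hν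
  set Q := gal N σ • u * (gal N σ⁻¹ • u) ^ ℓ with hQ
  set κ : Kbar := c ^ (ℓ + 1) / (σ c * (σ⁻¹ c) ^ ℓ) with hκdef
  have hfr : finrankAlong Kbar (heckeAlphaBar Kbar N ℓ) = ℓ + 1 :=
    Fermat.Agent.Red.Kron.finrank_heckeAlphaBar N ℓ hℓ hN
  have h1 : normAlong (heckeAlphaBar Kbar N ℓ) (heckeBetaBar Kbar N ℓ (cst N c * u)) =
      cst N c ^ (ℓ + 1) * ν := by
    have e : heckeBetaBar Kbar N ℓ (cst N c * u) =
        heckeAlphaBar Kbar N ℓ (cst N c) * heckeBetaBar Kbar N ℓ u := by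
      rw [map_mul, AlgHom.commutes, AlgHom.commutes]
    rw [e, normAlong_mul, normAlong_map, hfr]
  have h2 : gal N σ • (cst N c * u) = cst N (σ c) * gal N σ • u := by
    rw [smul_mul', gal_smul_cst]
  have h3 : gal N σ⁻¹ • (cst N c * u) = cst N (σ⁻¹ c) * gal N σ⁻¹ • u := by
    rw [smul_mul', gal_smul_cst]
  have hσc : σ c ≠ 0 := (_root_.map_ne_zero _).2 hc
  have hσc' : σ⁻¹ c ≠ 0 := (_root_.map_ne_zero _).2 hc
  have hcst : ∀ {a : Kbar}, a ≠ 0 → cst N a ≠ 0 := fun ha => (_root_.map_ne_zero _).2 ha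
  have hQ0 : Q ≠ 0 := mul_ne_zero (gal_smul_ne_zero σ hu0) (pow_ne_zero _ (gal_smul_ne_zero σ⁻¹ hu0))
  have hQV : Q ∈ gaussV A N :=
    mul_mem (gal_smul_mem_gaussV A N σ hσD u hu)
      (pow_mem (gal_smul_mem_gaussV A N σ⁻¹ (inv_mem hσD) u hu) ℓ)
  obtain ⟨hκA, hκ0, hκinv, hκ1⟩ := one_add_nonunit (hκ ℓ A σ hσ c hc)
  have hW1 := redZero_of_congOne hℓ hN hA hW
  rw [h1, h2, h3] at hW1
  have e : ν - Q = Q * (cst N κ⁻¹ * (cst N c ^ (ℓ + 1) * ν /
      (cst N (σ c) * gal N σ • u * (cst N (σ⁻¹ c) * gal N σ⁻¹ • u) ^ ℓ) - 1) +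
      cst N (κ⁻¹ - 1)) := by
    have hk : cst N κ⁻¹ = cst N (σ c) * cst N (σ⁻¹ c) ^ ℓ / cst N c ^ (ℓ + 1) := by
      rw [hκdef, inv_div, cst, map_div₀, map_mul, map_pow, map_pow]
    have hg1 := gal_smul_ne_zero (N := N) σ hu0
    have hg2 := gal_smul_ne_zero (N := N) σ⁻¹ hu0
    rw [cst_sub, cst_one, hk, hQ]
    have hc1 := hcst hc
    have hc2 := hcst hσc
    have hc3 := hcst hσc'
    field_simp
    ring
  rw [e]
  have hkV : cst N κ⁻¹ ∈ gaussV A N := (cst_mem_gaussV_iff A N hA _).2 hκinv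
  exact RedZero.mul_right hQV ((RedZero.mul_right hkV hW1).add (redZero_cst hA hκ1))

end Unscaled

end Fermat.Agent.Red.KR
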