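import Fermat.Agent.S37.Skeleton
import Fermat.Agent.S37.Inertia
import Fermat.Agent.Red.Match
import Fermat.Agent.Bridge.Frobenius

/-!
# P-RED, module R-KR (helper90): the Kronecker congruence on places — assembly

`IfaceKronecker N` is reduced to the **key statement** `IfaceKey N`: the `ℓ + 1` places of
`T_ℓ x` (listed with multiplicity) are all of the same type as `x` and, for every function `f`
of the chart, the values of `f` on them are congruent (as a multiset, modulo `𝔪_A`) to the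
values of `f` on `σ x + ℓ · σ⁻¹ x`.
-/

set_option autoImplicit false

open AlgebraicCurve ModularCurve IntermediateField

noncomputable section

namespace Fermat.Agent.Red.KR

open Fermat.Agent.S37

/-- the family `(σ x, σ⁻¹ x, …, σ⁻¹ x)` of `ℓ + 1` places. -/
def targetFam (N ℓ : ℕ) (σ : GQ) (x : Place Kbar (FF N)) : Fin (ℓ + 1) → Place Kbar (FF N) :=
  Fin.cons (gal N σ • x) (fun _ => gal N σ⁻¹ • x)

/-- **KEY.**  The places of `T_ℓ x`, listed with multiplicity, are of the same type as `x`, and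
the values of every chart function on them are congruent to its values on `σ x + ℓ σ⁻¹ x`. -/
def IfaceKey (N : ℕ) [NeZero N] : Prop :=
  ∀ (ℓ : ℕ) (hℓ : ℓ.Prime), ¬ ℓ ∣ N →
    ∀ A : ValuationSubring Kbar, A.LiesOverPrime ℓ → ∀ σ : GQ, A.IsFrobeniusAt σ ℓ →
    haveI : NeZero ℓ := ⟨hℓ.ne_zero⟩
    ∀ (hα : HeckeAlphaBarIntegral Kbar N ℓ) (hβ : HeckeBetaBarIntegral Kbar N ℓ)
      [HasPrincipalDivisors Kbar (FF (N * ℓ))] (x : Place Kbar (FF N)),
      ∃ u : Fin (ℓ + 1) → Place Kbar (FF N),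
        heckeDivBar hα hβ (Finsupp.single x (1 : ℤ)) = ∑ i, Finsupp.single (u i) (1 : ℤ) ∧
        (IsFinAt A x → (∀ i, IsFinAt A (u i)) ∧
          ∀ f ∈ modelFin N A, ValuesCong A u (targetFam N ℓ σ x) f) ∧
        (¬ IsFinAt A x → (∀ i, ¬ IsFinAt A (u i)) ∧
          ∀ f ∈ modelInf N A, ValuesCong A u (targetFam N ℓ σ x) f)

section Decomposition

variable {N : ℕ} [NeZero N]

/-- an element of the decomposition group maps `A` into `A`. -/
theorem decomp_apply_mem {A : ValuationSubring Kbar} {σ : GQ}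
    (hσ : σ ∈ A.decompositionSubgroup ℚ) {a : Kbar} (ha : a ∈ A) : σ a ∈ A :=
  ((⟨σ, hσ⟩ : A.decompositionSubgroup ℚ) • (⟨a, ha⟩ : A) : A).2

theorem isFinAt_gal_of_decomp {A : ValuationSubring Kbar} {σ : GQ}
    (hσ : σ ∈ A.decompositionSubgroup ℚ) {v : Place Kbar (FF N)} (h : IsFinAt A v) :
    IsFinAt A (gal N σ • v) := by
  obtain ⟨a, ha, hv⟩ := h
  have h3 := GalI.valueAt_gal σ hv
  rw [GalI.gal_smul_jB] at h3
  exact ⟨σ a, decomp_apply_mem hσ ha, h3⟩

omit [NeZero N] in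
theorem gal_inv_smul_smul (σ : GQ) (v : Place Kbar (FF N)) :
    gal N σ⁻¹ • gal N σ • v = v := by
  rw [show gal N σ⁻¹ = (gal N σ)⁻¹ from map_inv _ σ, inv_smul_smul]

omit [NeZero N] in
theorem gal_smul_inv_smul (σ : GQ) (v : Place Kbar (FF N)) :
    gal N σ • gal N σ⁻¹ • v = v := by
  rw [show gal N σ⁻¹ = (gal N σ)⁻¹ from map_inv _ σ, smul_inv_smul]

theorem isFinAt_gal_iff {A : ValuationSubring Kbar} {σ : GQ}
    (hσ : σ ∈ A.decompositionSubgroup ℚ) {v : Place Kbar (FF N)} :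
    IsFinAt A (gal N σ • v) ↔ IsFinAt A v := by
  refine ⟨fun h => ?_, isFinAt_gal_of_decomp hσ⟩
  have := isFinAt_gal_of_decomp (N := N) (inv_mem hσ) h
  rwa [gal_inv_smul_smul] at this

end Decomposition

/-- the sum of the target family. -/
theorem sum_targetFam (N ℓ : ℕ) (σ : GQ) (x : Place Kbar (FF N)) :
    ∑ i, Finsupp.single (targetFam N ℓ σ x i) (1 : ℤ) =
      Finsupp.single (gal N σ • x) (1 : ℤ) + (ℓ : ℤ) • Finsupp.single (gal N σ⁻¹ • x) (1 : ℤ) := by
  rw [Fin.sum_univ_succ]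
  simp only [targetFam, Fin.cons_zero, Fin.cons_succ, Finset.sum_const, Finset.card_univ,
    Fintype.card_fin]
  rw [natCast_zsmul]

/-- **R-KR, assembly.**  The Kronecker congruence on places from the key statement. -/
theorem ifaceKronecker_of_key (N : ℕ) [NeZero N] (hK : IfaceKey N) : IfaceKronecker N := by
  intro ℓ hℓ hℓN A hA σ hσ
  have : NeZero ℓ := ⟨hℓ.ne_zero⟩
  intro hα hβ _ v
  have hσD : σ ∈ A.decompositionSubgroup ℚ := hσ.mem_decompositionSubgroup
  set x : Place Kbar (FF N) := gal N σ • v with hx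
  obtain ⟨u, hu, hfin, hinf⟩ := hK ℓ hℓ hℓN A hA σ hσ hα hβ x
  have hxv : gal N σ⁻¹ • x = v := gal_inv_smul_smul σ v
  have hsum : heckeDivBar hα hβ (Finsupp.single x (1 : ℤ))
      - Finsupp.single (gal N σ • x) (1 : ℤ) - (ℓ : ℤ) • Finsupp.single v (1 : ℤ)
      = ∑ i, (Finsupp.single (u i) (1 : ℤ) - Finsupp.single (targetFam N ℓ σ x i) (1 : ℤ)) := by
    rw [Finset.sum_sub_distrib, sum_targetFam, hu, hxv]
    abel
  rw [hsum]
  apply Fermat.Agent.Red.Match.ifaceMatch N A (ℓ + 1) u (targetFam N ℓ σ x)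
  have htarget : ∀ P : Place Kbar (FF N) → Prop, P (gal N σ • x) → P (gal N σ⁻¹ • x) →
      ∀ i, P (targetFam N ℓ σ x i) := by
    intro P h1 h2 i
    refine Fin.cases ?_ (fun j => ?_) i
    · simpa [targetFam] using h1
    · simpa [targetFam] using h2
  by_cases h : IsFinAt A x
  · left
    obtain ⟨h1, h2⟩ := hfin h
    exact ⟨h1, htarget _ ((isFinAt_gal_iff hσD).mpr h)
      ((isFinAt_gal_iff (inv_mem hσD)).mpr h), h2⟩
  · right
    obtain ⟨h1, h2⟩ := hinf h
    exact ⟨h1, htarget (fun P => ¬ IsFinAt A P) (fun hc => h ((isFinAt_gal_iff hσD).mp hc))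
      (fun hc => h ((isFinAt_gal_iff (inv_mem hσD)).mp hc)), h2⟩

end Fermat.Agent.Red.KR
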