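import Fermat.Agent.Red.KR.Skel2

/-!
# P-RED, module R-KR (helper90): the key statement from the leaves

`ifaceKey_of` : `IfaceKey N` from `IfaceCongFrobenius N`, `KappaStatement`, `ValStatement`,
`NbrStatement`, `NormFinStatement`, `NormInfStatement`.
-/

set_option autoImplicit false
set_option linter.style.haveILetI false

open AlgebraicCurve ModularCurve IntermediateField Polynomial

noncomputable section

namespace Fermat.Agent.Red.KR

open Fermat.Agent.S37 Fermat.Agent.S37.GalI Fermat.Agent.Red.GV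

/-! ### Congruence of polynomials from pointwise congruence -/

section Pointwise

variable (A : ValuationSubring Kbar)

theorem residue_infinite : Infinite (IsLocalRing.ResidueField A) := by
  haveI := Fermat.Agent.S18.h72_residueField_isAlgClosed A
  infer_instance

theorem prod_X_sub_C_map {n : ℕ} (a : Fin n → A) :
    (∏ i, (X - C (a i)) : A[X]).map A.subtype = ∏ i, (X - C ((a i : A) : Kbar)) := by
  rw [Polynomial.map_prod]
  refine Finset.prod_congr rfl fun i _ => ?_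
  rw [Polynomial.map_sub, Polynomial.map_X, Polynomial.map_C]
  rfl

/-- two monic polynomials with roots in `A` whose values at all `c ∈ A` are congruent modulo
`𝔪_A` are congruent. -/
theorem rootsCong_of_pointwise {n : ℕ} (a b : Fin n → Kbar) (ha : ∀ i, a i ∈ A)
    (hb : ∀ i, b i ∈ A)
    (h : ∀ c ∈ A, (∏ i, (c - a i)) - (∏ i, (c - b i)) ∈ A.nonunits) : RootsCong A a b := by
  classical
  haveI := residue_infinite A
  set a' : Fin n → A := fun i => ⟨a i, ha i⟩ with ha'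
  set b' : Fin n → A := fun i => ⟨b i, hb i⟩ with hb'
  set P : A[X] := ∏ i, (X - C (a' i)) with hP
  set Q : A[X] := ∏ i, (X - C (b' i)) with hQ
  have hres : P.map (IsLocalRing.residue A) = Q.map (IsLocalRing.residue A) := by
    apply Polynomial.funext
    intro r
    obtain ⟨c, rfl⟩ := IsLocalRing.residue_surjective r
    rw [Polynomial.eval_map, Polynomial.eval_map, Polynomial.eval₂_hom, Polynomial.eval₂_hom,
      ← sub_eq_zero, ← map_sub, IsLocalRing.residue_eq_zero_iff,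
      ← ValuationSubring.coe_mem_nonunits_iff]
    have h1 := h c c.2
    have e : ((P.eval c - Q.eval c : A) : Kbar) =
        (∏ i, ((c : Kbar) - a i)) - ∏ i, ((c : Kbar) - b i) := by
      rw [hP, hQ, Polynomial.eval_prod, Polynomial.eval_prod]
      simp only [Polynomial.eval_sub, Polynomial.eval_X, Polynomial.eval_C]
      push_cast
      rfl
    rw [e]
    exact h1
  intro m
  have h2 := congrArg (fun p => p.coeff m) hres
  simp only [Polynomial.coeff_map] at h2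
  rw [← sub_eq_zero, ← map_sub, IsLocalRing.residue_eq_zero_iff,
    ← ValuationSubring.coe_mem_nonunits_iff] at h2
  have e : (∏ i, (X - C (a i))).coeff m - (∏ i, (X - C (b i))).coeff m =
      ((P.coeff m - Q.coeff m : A) : Kbar) := by
    have h3 := prod_X_sub_C_map A a'
    have h4 := prod_X_sub_C_map A b'
    have h5 : (∏ i, (X - C (a i)) : Kbar[X]) = P.map A.subtype := h3.symm
    have h6 : (∏ i, (X - C (b i)) : Kbar[X]) = Q.map A.subtype := h4.symm
    rw [h5, h6, Polynomial.coeff_map, Polynomial.coeff_map]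
    rfl
  rw [e]
  exact h2

/-- the Frobenius congruence on constants. -/
theorem frob_cong {ℓ : ℕ} {σ : GQ} (hσ : A.IsFrobeniusAt σ ℓ) {r s c : Kbar} (hr : r ∈ A)
    (hs : s ∈ A) (hc : c ∈ A) :
    σ (c - r) * (σ⁻¹ (c - s)) ^ ℓ - (c - s) * (c - r) ^ ℓ ∈ A.nonunits := by
  have hσD : σ ∈ A.decompositionSubgroup ℚ := hσ.mem_decompositionSubgroup
  have h1A : c - r ∈ A := sub_mem hc hr
  have h2A : σ⁻¹ (c - s) ∈ A := decomp_apply_mem (inv_mem hσD) (sub_mem hc hs)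
  have h1 := Fermat.Agent.Bridge.frob_sub_pow_mem_nonunits hσ h1A
  have h2 := Fermat.Agent.Bridge.frob_sub_pow_mem_nonunits hσ h2A
  have e2 : σ (σ⁻¹ (c - s)) = c - s := by
    show (σ * σ⁻¹) (c - s) = c - s
    rw [mul_inv_cancel]
    rfl
  rw [e2] at h2
  have e : σ (c - r) * (σ⁻¹ (c - s)) ^ ℓ - (c - s) * (c - r) ^ ℓ =
      (σ (c - r) - (c - r) ^ ℓ) * (σ⁻¹ (c - s)) ^ ℓ -
        (c - r) ^ ℓ * ((c - s) - (σ⁻¹ (c - s)) ^ ℓ) := by ring
  rw [e]
  exact sub_mem_nonunits A (mul_mem_nonunits_left A h1 (A.pow_mem h2A ℓ))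
    (mul_mem_nonunits_right A (A.pow_mem h1A ℓ) h2)

end Pointwise

/-! ### Values -/

section Values

variable {M : ℕ}

theorem valueAt_sub' {v : Place Kbar (FF M)} {f₁ f₂ : FF M} {a₁ a₂ : Kbar}
    (h₁ : ValueAt v f₁ a₁) (h₂ : ValueAt v f₂ a₂) : ValueAt v (f₁ - f₂) (a₁ - a₂) := by
  rw [sub_eq_add_neg, sub_eq_add_neg]
  exact valueAt_add h₁ (valueAt_neg h₂)

theorem valueAt_pow' {v : Place Kbar (FF M)} {f : FF M} {a : Kbar} (h : ValueAt v f a)
    (n : ℕ) : ValueAt v (f ^ n) (a ^ n) := by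
  induction n with
  | zero => simpa using valueAt_one v
  | succ n ih =>
    rw [pow_succ, pow_succ]
    exact valueAt_mul ih h

end Values

/-! ### The pointwise congruence on one chart -/

section Core

variable {N : ℕ} [NeZero N] {ℓ : ℕ} [NeZero ℓ]

/-- **the core of R-KR**: on a chart `R` (stable under the decomposition group, contained in
the Gauss ring, with QEP and with values in `A` at `x`, `σ x`, `σ⁻¹ x`), for `f ∈ R` and a
multiplier `h ∈ R` with `h(x) ≡ 1`, `h · ν(c - f) ∈ R`: the value `∏ (c - a i)` of `ν(c - f)`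
at `x` is congruent to `(c - f(σ x)) (c - f(σ⁻¹ x))^ℓ`. -/
theorem pointwise_core (hF : IfaceCongFrobenius N) (hκ : KappaStatement)
    (hℓ : ℓ.Prime) (hN : ¬ ℓ ∣ N) (A : ValuationSubring Kbar) (hA : A.LiesOverPrime ℓ)
    (σ : GQ) (hσ : A.IsFrobeniusAt σ ℓ) (x : Place Kbar (FF N))
    (R : Subring (FF N)) (hRV : R ≤ gaussV A N)
    (hqep : ∀ y : FF N, y ∈ R → RedZero A N y →
      ∃ (e : Kbar) (g : FF N), e ∈ A.nonunits ∧ g ∈ R ∧ y = cst N e * g)
    (hvalx : ∀ g ∈ R, ∃ b ∈ A, ValueAt x g b)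
    (hgal : ∀ g ∈ R, gal N σ • g ∈ R ∧ gal N σ⁻¹ • g ∈ R)
    (hcst : ∀ c ∈ A, cst N c ∈ R)
    {f : FF N} (hf : f ∈ R) {h : FF N} (hh : h ∈ R) {e' : Kbar} (he' : e' ∈ A.nonunits)
    (hhx : ValueAt x h (1 + e'))
    (hν : ∀ c ∈ A, h * normAlong (heckeAlphaBar Kbar N ℓ)
      (heckeBetaBar Kbar N ℓ (cst N c - f)) ∈ R)
    {a : Fin (ℓ + 1) → Kbar} (ha : ∀ i, a i ∈ A)
    (hval : ∀ c : Kbar, ValueAt x
      (normAlong (heckeAlphaBar Kbar N ℓ) (heckeBetaBar Kbar N ℓ (cst N c - f)))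
      (∏ i, (c - a i)))
    {r s : Kbar} (hr : r ∈ A) (hs : s ∈ A) (hfr : ValueAt (gal N σ⁻¹ • x) f r)
    (hfs : ValueAt (gal N σ • x) f s) :
    ∀ c ∈ A, (∏ i, (c - a i)) - (c - s) * (c - r) ^ ℓ ∈ A.nonunits := by
  intro c hc
  have hσD : σ ∈ A.decompositionSubgroup ℚ := hσ.mem_decompositionSubgroup
  set u : FF N := cst N c - f with hu
  have huR : u ∈ R := sub_mem (hcst c hc) hf
  set ν : FF N := normAlong (heckeAlphaBar Kbar N ℓ) (heckeBetaBar Kbar N ℓ u) with hνdef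
  set Q : FF N := gal N σ • u * (gal N σ⁻¹ • u) ^ ℓ with hQdef
  have hQR : Q ∈ R := mul_mem (hgal u huR).1 (pow_mem (hgal u huR).2 ℓ)
  have hRZ : RedZero A N (ν - Q) := redZero_norm_sub hF hκ hℓ hN A hA σ hσ u (hRV huR)
  have hmem : h * (ν - Q) ∈ R := by
    rw [mul_sub]
    exact sub_mem (hν c hc) (mul_mem hh hQR)
  obtain ⟨e, g, he, hg, heq⟩ := hqep _ hmem (RedZero.mul_right (hRV hh) hRZ)
  -- values at `x`
  have hνx : ValueAt x ν (∏ i, (c - a i)) := hval c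
  have hux1 : ValueAt (gal N σ⁻¹ • x) u (c - r) := valueAt_sub' (valueAt_cst _ c) hfr
  have hux2 : ValueAt (gal N σ • x) u (c - s) := valueAt_sub' (valueAt_cst _ c) hfs
  have hQ1 : ValueAt x (gal N σ • u) (σ (c - r)) := by
    have := valueAt_gal σ hux1
    rwa [gal_smul_inv_smul] at this
  have hQ2 : ValueAt x (gal N σ⁻¹ • u) (σ⁻¹ (c - s)) := by
    have := valueAt_gal σ⁻¹ hux2
    rwa [gal_inv_smul_smul] at this
  have hQx : ValueAt x Q (σ (c - r) * (σ⁻¹ (c - s)) ^ ℓ) := valueAt_mul hQ1 (valueAt_pow' hQ2 ℓ)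
  obtain ⟨gx, hgxA, hgx⟩ := hvalx g hg
  have h1 : ValueAt x (h * (ν - Q))
      ((1 + e') * ((∏ i, (c - a i)) - σ (c - r) * (σ⁻¹ (c - s)) ^ ℓ)) :=
    valueAt_mul hhx (valueAt_sub' hνx hQx)
  have h2 : ValueAt x (h * (ν - Q)) (e * gx) := by
    rw [heq]
    exact valueAt_mul (valueAt_cst _ e) hgx
  have h3 := valueAt_unique h1 h2
  -- the difference is in `A`
  have hPA : (∏ i, (c - a i)) ∈ A := A.toSubring.prod_mem fun i _ => sub_mem hc (ha i)
  have hQA : σ (c - r) * (σ⁻¹ (c - s)) ^ ℓ ∈ A :=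
    A.mul_mem _ _ (decomp_apply_mem hσD (sub_mem hc hr))
      (A.pow_mem (decomp_apply_mem (inv_mem hσD) (sub_mem hc hs)) ℓ)
  have hDA : (∏ i, (c - a i)) - σ (c - r) * (σ⁻¹ (c - s)) ^ ℓ ∈ A := sub_mem hPA hQA
  have h4 : (∏ i, (c - a i)) - σ (c - r) * (σ⁻¹ (c - s)) ^ ℓ ∈ A.nonunits := by
    have e1 : (∏ i, (c - a i)) - σ (c - r) * (σ⁻¹ (c - s)) ^ ℓ =
        e * gx - e' * ((∏ i, (c - a i)) - σ (c - r) * (σ⁻¹ (c - s)) ^ ℓ) := by
      rw [← h3]; ring
    rw [e1]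
    exact sub_mem_nonunits A (mul_mem_nonunits_left A he hgxA) (mul_mem_nonunits_left A he' hDA)
  have h5 := frob_cong A hσ hr hs hc
  have e2 : (∏ i, (c - a i)) - (c - s) * (c - r) ^ ℓ =
      ((∏ i, (c - a i)) - σ (c - r) * (σ⁻¹ (c - s)) ^ ℓ) +
        (σ (c - r) * (σ⁻¹ (c - s)) ^ ℓ - (c - s) * (c - r) ^ ℓ) := by ring
  rw [e2]
  exact add_mem_nonunits A h4 h5

end Core

/-! ### Assembly -/

section Assembly

variable {N : ℕ} [NeZero N]

theorem prod_cons_sub (ℓ : ℕ) (c s r : Kbar) :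
    (∏ i : Fin (ℓ + 1), (c - (Fin.cons s (fun _ => r) : Fin (ℓ + 1) → Kbar) i)) =
      (c - s) * (c - r) ^ ℓ := by
  rw [Fin.prod_univ_succ]
  simp only [Fin.cons_zero, Fin.cons_succ, Finset.prod_const, Finset.card_univ,
    Fintype.card_fin]

omit [NeZero N] in
theorem targetFam_values {ℓ : ℕ} (A : ValuationSubring Kbar) (σ : GQ)
    (x : Place Kbar (FF N)) (f : FF N) {r s : Kbar} (hr : r ∈ A) (hs : s ∈ A)
    (hfr : ValueAt (gal N σ⁻¹ • x) f r) (hfs : ValueAt (gal N σ • x) f s) (i : Fin (ℓ + 1)) :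
    (Fin.cons s (fun _ => r) : Fin (ℓ + 1) → Kbar) i ∈ A ∧
      ValueAt (targetFam N ℓ σ x i) f ((Fin.cons s (fun _ => r) : Fin (ℓ + 1) → Kbar) i) := by
  refine Fin.cases ?_ (fun j => ?_) i
  · simp only [targetFam, Fin.cons_zero]
    exact ⟨hs, hfs⟩
  · simp only [targetFam, Fin.cons_succ]
    exact ⟨hr, hfr⟩

/-- **R-KR, the key statement** from the leaves. -/
theorem ifaceKey_of (hF : IfaceCongFrobenius N) (hκ : KappaStatement) (hV : ValStatement)
    (hNbr : NbrStatement) (hNF : NormFinStatement) (hNI : NormInfStatement) : IfaceKey N := by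
  intro ℓ hℓ hN A hA σ hσ
  have : NeZero ℓ := ⟨hℓ.ne_zero⟩
  intro hα hβ _ x
  have hσD : σ ∈ A.decompositionSubgroup ℚ := hσ.mem_decompositionSubgroup
  obtain ⟨w, hwx, hT, hvals⟩ := hV N ℓ hℓ hN hα hβ x
  refine ⟨fun i => (w i).restrictAlong (heckeAlphaBar Kbar N ℓ) hα, hT, ?_, ?_⟩
  · -- the finite chart
    intro hx
    have hu : ∀ i, IsFinAt A ((w i).restrictAlong (heckeAlphaBar Kbar N ℓ) hα) := fun i =>
      (hNbr N ℓ hℓ hN A hA hα hβ (w i)).2 (by rw [hwx i]; exact hx)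
    refine ⟨hu, fun f hf => ?_⟩
    have hfa : ∀ i, ∃ a : A, ValueAt ((w i).restrictAlong (heckeAlphaBar Kbar N ℓ) hα) f a :=
      fun i => Fermat.Agent.Red.Match.exists_valueAt_modelFin (hu i) ⟨f, hf⟩
    choose a0 ha0 using hfa
    have hαf : ∀ i, ValueAt (w i) (heckeAlphaBar Kbar N ℓ f) (a0 i) := fun i =>
      (Fermat.Agent.Red.TRK.h87_valueAt_restrict (heckeAlphaBar Kbar N ℓ) hα (w i) f (a0 i)).mp
        (ha0 i)
    obtain ⟨a, hav, hval⟩ := hvals f (fun i => valueAt_mem (hαf i))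
    have haa : ∀ i, a i = a0 i := fun i => valueAt_unique (hav i) (hαf i)
    have haA : ∀ i, a i ∈ A := fun i => by rw [haa i]; exact (a0 i).2
    obtain ⟨s, hs⟩ := Fermat.Agent.Red.Match.exists_valueAt_modelFin
      ((isFinAt_gal_iff hσD).2 hx) ⟨f, hf⟩
    obtain ⟨r, hr⟩ := Fermat.Agent.Red.Match.exists_valueAt_modelFin
      ((isFinAt_gal_iff (inv_mem hσD)).2 hx) ⟨f, hf⟩
    refine ⟨a, Fin.cons (s : Kbar) (fun _ => (r : Kbar)), fun i => ⟨haA i, ?_⟩,
      targetFam_values A σ x f r.2 s.2 hr hs, ?_⟩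
    · rw [haa i]; exact ha0 i
    apply rootsCong_of_pointwise A _ _ haA
      (fun i => (targetFam_values (ℓ := ℓ) A σ x f r.2 s.2 hr hs i).1)
    intro c hc
    rw [prod_cons_sub]
    refine pointwise_core hF hκ hℓ hN A hA σ hσ x (modelFin N A)
      (modelFin_le_gaussV A N hℓ hN hA) ?_ ?_ ?_ ?_ hf (one_mem _) (zero_mem_nonunits A) ?_ ?_
      haA hval r.2 s.2 hr hs c hc
    · intro y hy hRZ
      obtain ⟨e, g, -, he, hg, heq⟩ :=
        exists_eq_cst_mul_of_gaussR_eq_zero_fin A N hℓ hN hA ⟨y, hRZ.1⟩ hy hRZ.2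
      exact ⟨e, g, he, hg, heq⟩
    · intro g hg
      obtain ⟨b, hb⟩ := Fermat.Agent.Red.Match.exists_valueAt_modelFin hx ⟨g, hg⟩
      exact ⟨b, b.2, hb⟩
    · intro g hg
      constructor
      · have := gal_mem_modelAt A hσD (N := N) (t := jB N) (x := g) hg
        rwa [gal_smul_jB] at this
      · have := gal_mem_modelAt A (inv_mem hσD) (N := N) (t := jB N) (x := g) hg
        rwa [gal_smul_jB] at this
    · intro c hc
      exact Fermat.Agent.Red.Match.cst_mem_modelAt N A (jB N) hc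
    · rw [add_zero]
      exact valueAt_one x
    · intro c hc
      rw [one_mul]
      exact hNF N ℓ hℓ hN A hA _
        (sub_mem (Fermat.Agent.Red.Match.cst_mem_modelAt N A (jB N) hc) hf)
  · -- the chart at infinity
    intro hx
    have hu : ∀ i, ¬ IsFinAt A ((w i).restrictAlong (heckeAlphaBar Kbar N ℓ) hα) := fun i h =>
      hx (by
        have := (hNbr N ℓ hℓ hN A hA hα hβ (w i)).1 h
        rwa [hwx i] at this)
    refine ⟨hu, fun f hf => ?_⟩
    have hfa : ∀ i, ∃ a : A, ValueAt ((w i).restrictAlong (heckeAlphaBar Kbar N ℓ) hα) f a :=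
      fun i => Fermat.Agent.Red.Match.exists_valueAt_modelInf (hu i) ⟨f, hf⟩
    choose a0 ha0 using hfa
    have hαf : ∀ i, ValueAt (w i) (heckeAlphaBar Kbar N ℓ f) (a0 i) := fun i =>
      (Fermat.Agent.Red.TRK.h87_valueAt_restrict (heckeAlphaBar Kbar N ℓ) hα (w i) f (a0 i)).mp
        (ha0 i)
    obtain ⟨a, hav, hval⟩ := hvals f (fun i => valueAt_mem (hαf i))
    have haa : ∀ i, a i = a0 i := fun i => valueAt_unique (hav i) (hαf i)
    have haA : ∀ i, a i ∈ A := fun i => by rw [haa i]; exact (a0 i).2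
    have hxs : ¬ IsFinAt A (gal N σ • x) := fun h => hx ((isFinAt_gal_iff hσD).1 h)
    have hxr : ¬ IsFinAt A (gal N σ⁻¹ • x) := fun h => hx ((isFinAt_gal_iff (inv_mem hσD)).1 h)
    obtain ⟨s, hs⟩ := Fermat.Agent.Red.Match.exists_valueAt_modelInf hxs ⟨f, hf⟩
    obtain ⟨r, hr⟩ := Fermat.Agent.Red.Match.exists_valueAt_modelInf hxr ⟨f, hf⟩
    refine ⟨a, Fin.cons (s : Kbar) (fun _ => (r : Kbar)), fun i => ⟨haA i, ?_⟩,
      targetFam_values A σ x f r.2 s.2 hr hs, ?_⟩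
    · rw [haa i]; exact ha0 i
    apply rootsCong_of_pointwise A _ _ haA
      (fun i => (targetFam_values (ℓ := ℓ) A σ x f r.2 s.2 hr hs i).1)
    intro c hc
    rw [prod_cons_sub]
    obtain ⟨h, hh, hhval, hν⟩ := hNI N ℓ hℓ hN A hA f hf
    obtain ⟨e', he', hhx⟩ := hhval x hx
    refine pointwise_core hF hκ hℓ hN A hA σ hσ x (modelInf N A)
      (modelInf_le_gaussV A N hℓ hN hA) ?_ ?_ ?_ ?_ hf hh he' hhx hν
      haA hval r.2 s.2 hr hs c hc
    · intro y hy hRZ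
      obtain ⟨e, g, -, he, hg, heq⟩ :=
        exists_eq_cst_mul_of_gaussR_eq_zero_inf A N hℓ hN hA ⟨y, hRZ.1⟩ hy hRZ.2
      exact ⟨e, g, he, hg, heq⟩
    · intro g hg
      obtain ⟨b, hb⟩ := Fermat.Agent.Red.Match.exists_valueAt_modelInf hx ⟨g, hg⟩
      exact ⟨b, b.2, hb⟩
    · intro g hg
      constructor
      · have := gal_mem_modelAt A hσD (N := N) (t := (jB N)⁻¹) (x := g) hg
        rwa [gal_smul_jB_inv] at this
      · have := gal_mem_modelAt A (inv_mem hσD) (N := N) (t := (jB N)⁻¹) (x := g) hg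
        rwa [gal_smul_jB_inv] at this
    · intro c hc
      exact Fermat.Agent.Red.Match.cst_mem_modelAt N A (jB N)⁻¹ hc

/-- **R-KR** from the leaves. -/
theorem ifaceKronecker_of (hF : IfaceCongFrobenius N) (hκ : KappaStatement)
    (hV : ValStatement) (hNbr : NbrStatement) (hNF : NormFinStatement)
    (hNI : NormInfStatement) : IfaceKronecker N :=
  ifaceKronecker_of_key N (ifaceKey_of hF hκ hV hNbr hNF hNI)

end Assembly

end Fermat.Agent.Red.KR
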