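import Fermat.Agent.Red.KR.Skel2
import Fermat.Agent.Red.KR.Reflect
import Fermat.Agent.Red.Kron.Fricke
import Fermat.Agent.Red.MatchLoc

/-!
# P-RED, R-KR leaf NORM-INF (helper27, second seat)

`h27_normInf : MEAlphaStatement → NormInfStatement`: on the chart at infinity the norm
`ν(c - f) = Norm_α (β (c - f))` becomes a chart function after multiplication by a power `h`
of `s(1/j)`, `s ∈ A[T]`, `s(0) = 1`; `h ≡ 1` at all non-finite places.
-/

set_option autoImplicit false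

open AlgebraicCurve ModularCurve IntermediateField Polynomial

noncomputable section

namespace Fermat.Agent.Red.KR

open Fermat.Agent.S37 Fermat.Agent.Red.GV

section Values

variable {N : ℕ}

/-- the value of `s(t)` at a place where `t` has the value `b ∈ A`. -/
theorem h27_valueAt_evalF (A : ValuationSubring Kbar) (v : Place Kbar (FF N)) (t : FF N) (b : A)
    (hb : ValueAt v t (b : Kbar)) (s : Polynomial A) :
    ValueAt v (evalF N A t s) ((s.eval b : A) : Kbar) := by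
  induction s using Polynomial.induction_on with
  | C a =>
    rw [evalF_C, eval_C]
    exact Fermat.Agent.Red.Match.valueAt_cst v a
  | add p q hp hq =>
    rw [map_add, eval_add]
    push_cast
    exact Fermat.Agent.Red.Match.valueAt_add hp hq
  | monomial n a h =>
    rw [pow_succ, ← mul_assoc, map_mul, evalF_X, eval_mul, eval_X]
    push_cast
    exact Fermat.Agent.Red.Match.valueAt_mul h hb

theorem h27_valueAt_pow {v : Place Kbar (FF N)} {g : FF N} {a : Kbar} (h : ValueAt v g a)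
    (k : ℕ) : ValueAt v (g ^ k) (a ^ k) := by
  induction k with
  | zero =>
    rw [pow_zero, pow_zero]
    exact Fermat.Agent.Red.Match.valueAt_one v
  | succ k ih =>
    rw [pow_succ, pow_succ]
    exact Fermat.Agent.Red.Match.valueAt_mul ih h

/-- `s(b)^k ≡ 1` modulo `𝔪_A` when `s(0) = 1` and `b ∈ 𝔪_A`. -/
theorem h27_eval_pow_sub_one_mem (A : ValuationSubring Kbar) (s : Polynomial A)
    (hs : s.coeff 0 = 1) (b : A) (hb : (b : Kbar) ∈ A.nonunits) (k : ℕ) :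
    (((s.eval b) ^ k : A) : Kbar) - 1 ∈ A.nonunits := by
  have hbm : b ∈ IsLocalRing.maximalIdeal A := ValuationSubring.coe_mem_nonunits_iff.mp hb
  have h1 : s.eval b - 1 ∈ IsLocalRing.maximalIdeal A := by
    have e : s.eval b - 1 = s.divX.eval b * b := by
      conv_lhs => rw [← Polynomial.divX_mul_X_add s]
      rw [eval_add, eval_mul, eval_X, eval_C, hs]
      ring
    rw [e]
    exact Ideal.mul_mem_left _ _ hbm
  have h2 : (s.eval b) ^ k - 1 ∈ IsLocalRing.maximalIdeal A := by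
    have hd : s.eval b - 1 ∣ (s.eval b) ^ k - 1 ^ k := sub_dvd_pow_sub_pow _ _ k
    rw [one_pow] at hd
    exact Ideal.mem_of_dvd _ hd h1
  have h3 := ValuationSubring.coe_mem_nonunits_iff.mpr h2
  simpa using h3

end Values

/-- **NORM-INF** (second seat, helper27). -/
theorem h27_normInf (h : MEAlphaStatement) : NormInfStatement := by
  intro N ℓ _ _ hℓ hℓN A hA f hf
  have hfin : FiniteAlong Kbar (heckeAlphaBar Kbar N ℓ) :=
    Fermat.Agent.Red.HKMod.finiteAlong_heckeAlphaBar N ℓ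
  have hαj : heckeAlphaBar Kbar N ℓ (jB N) = jB (N * ℓ) :=
    Fermat.Agent.Red.HKMod.heckeAlphaBar_jBar N ℓ
  have hjN : jB N ≠ 0 := fun h0 =>
    (Fermat.Agent.S24.transcendental_jBar N) (by
      rw [show Fermat.Agent.S24.jBar N = 0 from h0]
      exact isAlgebraic_zero)
  have hY : jB (N * ℓ) ≠ 0 := fun h0 =>
    (Fermat.Agent.S24.transcendental_jBar (N * ℓ)) (by
      rw [show Fermat.Agent.S24.jBar (N * ℓ) = 0 from h0]
      exact isAlgebraic_zero)
  have hJ : heckeBetaBar Kbar N ℓ (jB N) ≠ 0 := (_root_.map_ne_zero _).2 hjN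
  -- ME-β by the Fricke involution
  have hmeb : jB (N * ℓ) ∈ modelAt (N * ℓ) A (heckeBetaBar Kbar N ℓ (jB N)) := by
    have h1 : heckeBetaBar Kbar N ℓ (jB N) ∈ modelAt (N * ℓ) A (jB (N * ℓ)) :=
      h N ℓ hℓ hℓN A hA
    have h2 := map_mem_modelAt
      ((Fermat.Agent.Red.Kron.kFricke N ℓ hℓ hℓN : FF (N * ℓ) ≃ₐ[Kbar] FF (N * ℓ)) :
        FF (N * ℓ) →ₐ[Kbar] FF (N * ℓ)) A h1
    have e1 : ((Fermat.Agent.Red.Kron.kFricke N ℓ hℓ hℓN : FF (N * ℓ) ≃ₐ[Kbar] FF (N * ℓ)) :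
        FF (N * ℓ) →ₐ[Kbar] FF (N * ℓ)) (heckeBetaBar Kbar N ℓ (jB N)) = jB (N * ℓ) := by
      rw [AlgEquiv.coe_toAlgHom, Fermat.Agent.Red.Kron.kFricke_beta, hαj]
    have e2 : ((Fermat.Agent.Red.Kron.kFricke N ℓ hℓ hℓN : FF (N * ℓ) ≃ₐ[Kbar] FF (N * ℓ)) :
        FF (N * ℓ) →ₐ[Kbar] FF (N * ℓ)) (jB (N * ℓ)) = heckeBetaBar Kbar N ℓ (jB N) := by
      rw [AlgEquiv.coe_toAlgHom, ← hαj, Fermat.Agent.Red.Kron.kFricke_alpha]
    rwa [e1, e2] at h2
  rw [mem_modelAt_iff_evalF] at hmeb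
  -- REFLECT
  obtain ⟨s, hs0, hsU⟩ := reflect A (FF (N * ℓ)) ((algebraMap Kbar (FF (N * ℓ))).comp A.subtype)
    (heckeBetaBar Kbar N ℓ (jB N)) (jB (N * ℓ)) hJ hY hmeb
  -- notation
  set t : FF N := (jB N)⁻¹ with ht
  have hV : heckeAlphaBar Kbar N ℓ t = (jB (N * ℓ))⁻¹ := by rw [ht, map_inv₀, hαj]
  have hU : heckeBetaBar Kbar N ℓ t = (heckeBetaBar Kbar N ℓ (jB N))⁻¹ := by rw [ht, map_inv₀]
  -- MULT
  have hβf : heckeBetaBar Kbar N ℓ f ∈ modelAt (N * ℓ) A (heckeBetaBar Kbar N ℓ t) :=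
    map_mem_modelAt (heckeBetaBar Kbar N ℓ) A hf
  rw [hU, mem_modelAt_iff_evalF] at hβf
  obtain ⟨E, hE⟩ := mult A (FF (N * ℓ)) ((algebraMap Kbar (FF (N * ℓ))).comp A.subtype)
    (heckeBetaBar Kbar N ℓ (jB N))⁻¹ (jB (N * ℓ))⁻¹ s hsU (heckeBetaBar Kbar N ℓ f) hβf
  -- the multiplier
  set S : FF N := evalF N A t s with hS
  have hSmem : S ∈ modelAt N A t :=
    Fermat.Agent.Red.Match.ringAdj_le_modelAt N A t (evalF_mem_ringAdj N A t s)
  have hαS : heckeAlphaBar Kbar N ℓ S = evalF (N * ℓ) A (jB (N * ℓ))⁻¹ s := by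
    rw [hS, ← hV, ← comp_evalF (heckeAlphaBar Kbar N ℓ) A t]
    rfl
  have hSV : evalF (N * ℓ) A (jB (N * ℓ))⁻¹ s ∈ modelAt (N * ℓ) A (jB (N * ℓ))⁻¹ :=
    Fermat.Agent.Red.Match.ringAdj_le_modelAt _ A _ (evalF_mem_ringAdj _ A _ s)
  have hEmem : evalF (N * ℓ) A (jB (N * ℓ))⁻¹ s ^ E * heckeBetaBar Kbar N ℓ f ∈
      modelAt (N * ℓ) A (jB (N * ℓ))⁻¹ := by
    rw [mem_modelAt_iff_evalF]
    exact hE
  have hfr : finrankAlong Kbar (heckeAlphaBar Kbar N ℓ) = ℓ + 1 :=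
    Fermat.Agent.Red.Kron.finrank_heckeAlphaBar N ℓ hℓ hℓN
  refine ⟨(S ^ E) ^ (ℓ + 1), pow_mem (pow_mem hSmem E) (ℓ + 1), ?_, ?_⟩
  · -- values at the non-finite places
    intro x hx
    obtain ⟨b, hb, hbv⟩ := Fermat.Agent.Red.Match.exists_valueAt_inv_of_not_isFinAt hx
    have hbA : b ∈ A := ValuationSubring.nonunits_subset hb
    have hval := h27_valueAt_evalF A x t ⟨b, hbA⟩ hbv s
    have hval2 := h27_valueAt_pow (h27_valueAt_pow hval E) (ℓ + 1)
    have hmem := h27_eval_pow_sub_one_mem A s hs0 ⟨b, hbA⟩ hb (E * (ℓ + 1))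
    refine ⟨(((s.eval (⟨b, hbA⟩ : A)) ^ (E * (ℓ + 1)) : A) : Kbar) - 1, hmem, ?_⟩
    rw [add_sub_cancel]
    push_cast
    rw [pow_mul]
    exact hval2
  · -- the norm
    intro c hc
    have hyc : heckeAlphaBar Kbar N ℓ (S ^ E) * heckeBetaBar Kbar N ℓ (cst N c - f) ∈
        modelAt (N * ℓ) A (heckeAlphaBar Kbar N ℓ t) := by
      rw [hV, map_pow, hαS, map_sub, mul_sub]
      refine sub_mem (mul_mem (pow_mem hSV E) ?_) hEmem
      rw [AlgHom.commutes]
      exact Fermat.Agent.Red.Match.cst_mem_modelAt _ A _ hc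
    have hnorm := Fermat.Agent.Red.TRK.h87_coeff_mem_modelAt (heckeAlphaBar Kbar N ℓ) hfin A t
      (neg_mem hyc) 0
    rw [Polynomial.coeff_zero_eq_eval_zero, ← normAlong_sub_eq_eval, map_zero, zero_sub, neg_neg,
      normAlong_mul, normAlong_map, hfr] at hnorm
    exact hnorm

end Fermat.Agent.Red.KR
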