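import Fermat.Agent.Red.KR.Skel2
import Fermat.Agent.Red.Kron.NormSym
import Fermat.Agent.Red.Kron.Fricke
import Fermat.Agent.Red.GFFTower
import Fermat.Agent.Red.HKMod

/-!
# P-RED, module R-KR, leaf VAL (helper36)

`val : ValStatement` : the places `w i` of `F_{Nℓ}` above `x` along `β`, listed with
multiplicity; `T_ℓ x` is the sum of their restrictions along `α`; the value at `x` of
`Norm_α (β (c - f))` is `∏ (c - f(w i))`.

Proof: NORMLOC along `β` (`NormLoc.normLoc`), the Fricke symmetry of the norm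
(`Kron.norm_alpha_along_beta_eq`), and `normAlong_sub_eq_eval`.
-/

set_option autoImplicit false
set_option linter.style.haveILetI false

open AlgebraicCurve ModularCurve IntermediateField Polynomial

noncomputable section

namespace Fermat.Agent.Red.KR

open Fermat.Agent.S37 Fermat.Agent.S37.GalI

/-- values of finite sums. -/
private theorem h36_valueAt_sum {M : ℕ} (v : Place Kbar (FF M)) {ι : Type*} (s : Finset ι)
    (F : ι → FF M) (b : ι → Kbar) (h : ∀ i ∈ s, ValueAt v (F i) (b i)) :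
    ValueAt v (∑ i ∈ s, F i) (∑ i ∈ s, b i) := by
  classical
  induction s using Finset.induction_on with
  | empty => simpa using valueAt_zero v
  | insert i s hi ih =>
    rw [Finset.sum_insert hi, Finset.sum_insert hi]
    exact valueAt_add (h i (Finset.mem_insert_self i s))
      (ih fun j hj => h j (Finset.mem_insert_of_mem hj))

/-- values of powers. -/
private theorem h36_valueAt_pow {M : ℕ} {v : Place Kbar (FF M)} {f : FF M} {a : Kbar}
    (h : ValueAt v f a) (m : ℕ) : ValueAt v (f ^ m) (a ^ m) := by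
  induction m with
  | zero => simpa using valueAt_one v
  | succ m ih =>
    rw [pow_succ, pow_succ]
    exact valueAt_mul ih h

/-- the value of `P(c)` when the coefficients of `P` have values the coefficients of `Q`. -/
private theorem h36_valueAt_eval {M : ℕ} (v : Place Kbar (FF M)) (P : Polynomial (FF M))
    (Q : Polynomial Kbar) (h : ∀ m, ValueAt v (P.coeff m) (Q.coeff m)) (c : Kbar) :
    ValueAt v (P.eval (cst M c)) (Q.eval c) := by
  have hP : P.natDegree < max P.natDegree Q.natDegree + 1 :=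
    Nat.lt_succ_of_le (le_max_left _ _)
  have hQ : Q.natDegree < max P.natDegree Q.natDegree + 1 :=
    Nat.lt_succ_of_le (le_max_right _ _)
  rw [Polynomial.eval_eq_sum_range' hP, Polynomial.eval_eq_sum_range' hQ]
  exact h36_valueAt_sum v _ _ _ fun m _ =>
    valueAt_mul (h m) (h36_valueAt_pow (valueAt_cst v c) m)

/-- **VAL** with the index type `Fin n`, `n = finrankAlong β`. -/
private theorem h36_val_aux (N ℓ : ℕ) [NeZero N] [NeZero ℓ] (hℓ : ℓ.Prime) (hN : ¬ ℓ ∣ N)
    (hα : HeckeAlphaBarIntegral Kbar N ℓ) (hβ : HeckeBetaBarIntegral Kbar N ℓ)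
    [HasPrincipalDivisors Kbar (FF (N * ℓ))] (x : Place Kbar (FF N)) (n : ℕ)
    (hn : finrankAlong Kbar (heckeBetaBar Kbar N ℓ) = n) :
    ∃ w : Fin n → Place Kbar (FF (N * ℓ)),
      (∀ i, (w i).restrictAlong (heckeBetaBar Kbar N ℓ) hβ = x) ∧
      heckeDivBar hα hβ (Finsupp.single x (1 : ℤ)) =
        ∑ i, Finsupp.single ((w i).restrictAlong (heckeAlphaBar Kbar N ℓ) hα) (1 : ℤ) ∧
      ∀ f : FF N, (∀ i, heckeAlphaBar Kbar N ℓ f ∈ (w i).toValuationSubring) →
        ∃ a : Fin n → Kbar,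
          (∀ i, ValueAt (w i) (heckeAlphaBar Kbar N ℓ f) (a i)) ∧
          ∀ c : Kbar, ValueAt x
            (normAlong (heckeAlphaBar Kbar N ℓ) (heckeBetaBar Kbar N ℓ (cst N c - f)))
            (∏ i, (c - a i)) := by
  subst hn
  have hfin : FiniteAlong Kbar (heckeBetaBar Kbar N ℓ) :=
    Fermat.Agent.Red.HKMod.finiteAlong_heckeBetaBar N ℓ
  obtain ⟨u, hres, hpull, hval⟩ :=
    Fermat.Agent.Red.NormLoc.normLoc N (N * ℓ) (heckeBetaBar Kbar N ℓ) hβ hfin x
  refine ⟨u, hres, ?_, ?_⟩
  · show Divisor.pushforwardAlong (heckeAlphaBar Kbar N ℓ) hα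
      (Divisor.pullbackAlong (heckeBetaBar Kbar N ℓ) hβ (Finsupp.single x (1 : ℤ))) = _
    rw [hpull, map_sum]
    refine Finset.sum_congr rfl fun i _ => ?_
    have h1 := Divisor.pushforwardAlong_single (heckeAlphaBar Kbar N ℓ) hα (u i) (1 : ℤ)
    have h2 := Fermat.Agent.Red.GFF.inertiaDegAlong_eq_one_of_deg (heckeAlphaBar Kbar N ℓ) hα
      (u i) (Fermat.Agent.Red.HKMod.place_deg_FF (N * ℓ) (u i))
    rw [h2, Nat.cast_one, mul_one] at h1
    exact h1
  · intro f hf
    obtain ⟨a, ha, hcoeff⟩ := hval (heckeAlphaBar Kbar N ℓ f) hf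
    refine ⟨a, ha, fun c => ?_⟩
    have e1 : normAlong (heckeAlphaBar Kbar N ℓ) (heckeBetaBar Kbar N ℓ (cst N c - f)) =
        normAlong (heckeBetaBar Kbar N ℓ) (heckeAlphaBar Kbar N ℓ (cst N c - f)) :=
      (Fermat.Agent.Red.Kron.norm_alpha_along_beta_eq N ℓ hℓ hN (cst N c - f)).symm
    have e2 : heckeAlphaBar Kbar N ℓ (cst N c - f) =
        heckeBetaBar Kbar N ℓ (cst N c) - heckeAlphaBar Kbar N ℓ f := by
      rw [map_sub]
      congr 1
      show heckeAlphaBar Kbar N ℓ (algebraMap Kbar (FF N) c) =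
        heckeBetaBar Kbar N ℓ (algebraMap Kbar (FF N) c)
      rw [AlgHom.commutes, AlgHom.commutes]
    rw [e1, e2, normAlong_sub_eq_eval _ hfin]
    have h := h36_valueAt_eval x _ _ hcoeff c
    rwa [Polynomial.eval_prod, Finset.prod_congr rfl
      (fun i _ => by rw [Polynomial.eval_sub, Polynomial.eval_X, Polynomial.eval_C])] at h

/-- **VAL.** -/
theorem val : ValStatement := by
  intro N ℓ _ _ hℓ hN hα hβ _ x
  exact h36_val_aux N ℓ hℓ hN hα hβ x (ℓ + 1)
    (Fermat.Agent.Red.Kron.finrank_heckeBetaBar N ℓ hℓ hN)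

end Fermat.Agent.Red.KR
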