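import Fermat.Agent.Red.KR.OfMEA
import Fermat.Agent.Red.KR.MEAlpha

/-!
# P-RED, module R-KR (helper90): the Kronecker interface, unconditionally

`ifaceKronecker N : IfaceKronecker N` for every level `N ≠ 0`.

Leaves: ESTF (`ifaceCongFrobenius`), KAPPA, VAL, NBR, NORM-FIN, NORM-INF, ME-α; assembly in
`Red/KR/KeyOf.lean` and `Red/KR/OfMEA.lean`.
-/

set_option autoImplicit false

open AlgebraicCurve ModularCurve IntermediateField

noncomputable section

namespace Fermat.Agent.Red.KR

open Fermat.Agent.S37

/-- **R-KR**: the Kronecker congruence on places, for every level. -/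
theorem ifaceKronecker (N : ℕ) [NeZero N] : IfaceKronecker N :=
  ifaceKronecker_of_meAlpha meAlpha N

end Fermat.Agent.Red.KR
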