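import Fermat.Agent.Red.KR.Skel
import Fermat.Agent.Bridge.Frobenius
import Fermat.Agent.Bridge.Restrict

/-!
# P-RED, module R-KR, leaf KAPPA (helper69)

For a Frobenius element `σ` at a valuation subring `A` of `ℚ̄` and every nonzero constant `c`:
`c^(ℓ+1) / (σ c · (σ⁻¹ c)^ℓ) ≡ 1` modulo `𝔪_A`.

Proof: every `τ` in the decomposition group of `A` preserves the valuation of `A`
(`h69_decomp_div_mem`, by the finiteness of the `τ`-orbit of `c`), so `ε := σ⁻¹ c / c` is a unit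
of `A`; `σ ε = c / σ c` and `σ ε ≡ ε ^ ℓ`.
-/

set_option autoImplicit false

open scoped Pointwise

noncomputable section

namespace Fermat.Agent.Red.KR

open Fermat.Agent.S37

/-- the orbit of an algebraic number under an automorphism is finite. -/
theorem h69_exists_pow_fix (τ : GQ) (c : Kbar) : ∃ n : ℕ, 0 < n ∧ (τ ^ n) c = c := by
  have hc : IsIntegral ℚ c := ((AlgebraicClosure.isAlgebraic ℚ).isAlgebraic c).isIntegral
  have hne : minpoly ℚ c ≠ 0 := minpoly.ne_zero hc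
  have hmem : ∀ k : ℕ, (τ ^ k) c ∈ (minpoly ℚ c).rootSet Kbar := by
    intro k
    rw [Polynomial.mem_rootSet]
    refine ⟨hne, ?_⟩
    have h1 : Polynomial.aeval ((τ ^ k) c) (minpoly ℚ c) =
        (τ ^ k) (Polynomial.aeval c (minpoly ℚ c)) :=
      Polynomial.aeval_algHom_apply ((τ ^ k : GQ) : Kbar →ₐ[ℚ] Kbar) c (minpoly ℚ c)
    rw [h1, minpoly.aeval, map_zero]
  have hfin : Finite ((minpoly ℚ c).rootSet Kbar) := Polynomial.rootSet_finite _ _
  obtain ⟨i, j, hij, hf⟩ := Finite.exists_ne_map_eq_of_infinite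
    (fun k : ℕ => (⟨(τ ^ k) c, hmem k⟩ : (minpoly ℚ c).rootSet Kbar))
  have hf' : (τ ^ i) c = (τ ^ j) c := congrArg Subtype.val hf
  have key : ∀ a b : ℕ, a < b → (τ ^ a) c = (τ ^ b) c → ∃ n : ℕ, 0 < n ∧ (τ ^ n) c = c := by
    intro a b hab h
    refine ⟨b - a, Nat.sub_pos_of_lt hab, ?_⟩
    have h2 : τ ^ b = τ ^ a * τ ^ (b - a) := by
      rw [← pow_add, Nat.add_sub_cancel' hab.le]
    rw [h2, AlgEquiv.mul_apply] at h
    exact ((τ ^ a).injective h).symm
  rcases Nat.lt_or_gt_of_ne hij with h | h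
  · exact key i j h hf'
  · exact key j i h hf'.symm

/-- a nonempty product of elements of `𝔪_A` lies in `𝔪_A`. -/
theorem h69_prod_mem_nonunits (A : ValuationSubring Kbar) (f : ℕ → Kbar)
    (hf : ∀ k, f k ∈ A.nonunits) (n : ℕ) :
    ∏ k ∈ Finset.range (n + 1), f k ∈ A.nonunits := by
  induction n with
  | zero => simpa using hf 0
  | succ m ih =>
    rw [Finset.prod_range_succ]
    exact Fermat.Agent.Bridge.mul_mem_nonunits_left A ih
      (Fermat.Agent.Bridge.mem_of_mem_nonunits A (hf (m + 1)))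

/-- an element of the decomposition group preserves the valuation: `τ c / c ∈ A`. -/
theorem h69_decomp_div_mem (A : ValuationSubring Kbar) {τ : GQ}
    (hτ : τ ∈ A.decompositionSubgroup ℚ) {c : Kbar} (hc : c ≠ 0) : τ c / c ∈ A := by
  by_contra hnot
  have hz : c / τ c ∈ A.nonunits := by
    rw [Fermat.Agent.Bridge.mem_nonunits_iff_inv, inv_div]
    exact Or.inr hnot
  obtain ⟨n, hn, hfix⟩ := h69_exists_pow_fix τ c
  have hpow : ∀ k : ℕ, (τ ^ k) (c / τ c) ∈ A.nonunits := by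
    intro k
    exact (Fermat.Agent.Bridge.mem_nonunits_of_mem_decomp
      (Subgroup.pow_mem _ hτ k)).2 hz
  have hprod : ∏ k ∈ Finset.range n, (τ ^ k) (c / τ c) = 1 := by
    have h1 : ∀ k : ℕ, (τ ^ k) (c / τ c) = (τ ^ k) c / (τ ^ (k + 1)) c := by
      intro k
      rw [map_div₀, pow_succ, AlgEquiv.mul_apply]
    have h2 : ∀ m : ℕ, ∏ k ∈ Finset.range m, (τ ^ k) c / (τ ^ (k + 1)) c = c / (τ ^ m) c := by
      intro m
      induction m with
      | zero => simp [div_self hc]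
      | succ m ih =>
        have h3 : (τ ^ m) c ≠ 0 := (map_ne_zero _).2 hc
        rw [Finset.prod_range_succ, ih, div_mul_div_cancel₀ h3]
    rw [Finset.prod_congr rfl (fun k _ => h1 k), h2, hfix, div_self hc]
  obtain ⟨m, rfl⟩ : ∃ m, n = m + 1 := ⟨n - 1, by omega⟩
  have h2 := h69_prod_mem_nonunits A (fun k => (τ ^ k) (c / τ c)) hpow m
  rw [hprod] at h2
  rw [ValuationSubring.mem_nonunits_iff, map_one] at h2
  exact lt_irrefl _ h2

/-- **KAPPA.** -/
theorem kappa : KappaStatement := by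
  intro ℓ A σ hσ c hc
  have hσD : σ ∈ A.decompositionSubgroup ℚ := hσ.mem_decompositionSubgroup
  have hσD' : σ⁻¹ ∈ A.decompositionSubgroup ℚ := Subgroup.inv_mem _ hσD
  have hc' : (σ⁻¹ : GQ) c ≠ 0 := (map_ne_zero _).2 hc
  have hσc : σ c ≠ 0 := (map_ne_zero _).2 hc
  -- `ε = σ⁻¹ c / c` is a unit of `A`
  have hε : (σ⁻¹ : GQ) c / c ∈ A := h69_decomp_div_mem A hσD' hc
  have hεinv : c / (σ⁻¹ : GQ) c ∈ A := by
    have h := h69_decomp_div_mem A hσD hc'
    have e : σ ((σ⁻¹ : GQ) c) = c := σ.apply_symm_apply c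
    rwa [e] at h
  -- Frobenius congruence for `ε`
  have hfrob := Fermat.Agent.Bridge.frob_sub_pow_mem_nonunits hσ hε
  have hσε : σ ((σ⁻¹ : GQ) c / c) = c / σ c := by
    rw [map_div₀]
    congr 1
    exact σ.apply_symm_apply c
  rw [hσε] at hfrob
  have hpow : (c / (σ⁻¹ : GQ) c) ^ ℓ ∈ A := A.pow_mem hεinv ℓ
  have hmain : c ^ (ℓ + 1) / (σ c * ((σ⁻¹ : GQ) c) ^ ℓ) - 1 =
      (c / σ c - ((σ⁻¹ : GQ) c / c) ^ ℓ) * (c / (σ⁻¹ : GQ) c) ^ ℓ := by
    have h1 : ((σ⁻¹ : GQ) c) ^ ℓ ≠ 0 := pow_ne_zero _ hc'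
    have h2 : c ^ ℓ ≠ 0 := pow_ne_zero _ hc
    rw [div_pow, div_pow, pow_succ]
    field_simp
  rw [hmain]
  exact Fermat.Agent.Bridge.mul_mem_nonunits_left A hfrob hpow

end Fermat.Agent.Red.KR
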