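import Fermat.Agent.Red.KR.Skel2
import Fermat.Agent.Red.SM.XPrimeAbs

/-!
# P-RED, module R-KR, leaf NORM-FIN (second seat, helper46)

`ν(f) = Norm_α (β f)` maps the finite chart of level `N` to the finite chart of level `N`:
`β f` is integral over `A[β j]`, hence over `A[j] = A[α j]` (by ME-α and transitivity of
integrality); the constant coefficient of its characteristic polynomial along `α` is then
integral over `A[j]` (level `N`), and it is the norm of `- β f`.
-/

set_option autoImplicit false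

open AlgebraicCurve ModularCurve IntermediateField Polynomial

noncomputable section

namespace Fermat.Agent.Red.KR

open Fermat.Agent.S37

/-- transitivity of integrality for the charts: `modelAt x ≤ modelAt y` when `x ∈ modelAt y`. -/
theorem h46n_modelAt_le {M : ℕ} (A : ValuationSubring Kbar) {x y : FF M}
    (h : x ∈ modelAt M A y) : modelAt M A x ≤ modelAt M A y :=
  Fermat.Agent.Red.SM.XP.h8xp_ic_closure_le _ h

/-- **NORM-FIN** from ME-α. -/
theorem h46n_normFin (h : MEAlphaStatement) : NormFinStatement := by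
  intro N ℓ _ _ hℓ hN A hA f hf
  have hfin : FiniteAlong Kbar (heckeAlphaBar Kbar N ℓ) :=
    Fermat.Agent.Red.HKMod.finiteAlong_heckeAlphaBar N ℓ
  -- `-f` is a chart function, so `β (-f)` is integral over `A[β j]`
  have hnf : -f ∈ modelAt N A (jB N) := neg_mem hf
  have h1 : heckeBetaBar Kbar N ℓ (-f) ∈ modelAt (N * ℓ) A (heckeBetaBar Kbar N ℓ (jB N)) :=
    map_mem_modelAt (heckeBetaBar Kbar N ℓ) A hnf
  -- ME-α and transitivity
  have h2 : heckeBetaBar Kbar N ℓ (jB N) ∈ modelAt (N * ℓ) A (jB (N * ℓ)) := h N ℓ hℓ hN A hA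
  have h3 : heckeBetaBar Kbar N ℓ (-f) ∈ modelAt (N * ℓ) A (jB (N * ℓ)) :=
    h46n_modelAt_le A h2 h1
  have hj : jB (N * ℓ) = heckeAlphaBar Kbar N ℓ (jB N) :=
    (Fermat.Agent.Red.HKMod.heckeAlphaBar_jBar N ℓ).symm
  rw [hj] at h3
  -- the constant coefficient of the characteristic polynomial
  have h4 := Fermat.Agent.Red.TRK.h87_coeff_mem_modelAt (heckeAlphaBar Kbar N ℓ) hfin A (jB N)
    h3 0
  have h5 := normAlong_sub_eq_eval (heckeAlphaBar Kbar N ℓ) hfin 0
    (heckeBetaBar Kbar N ℓ (-f))
  rw [map_zero, zero_sub, map_neg, neg_neg, ← Polynomial.coeff_zero_eq_eval_zero,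
    ← map_neg] at h5
  rw [h5]
  exact h4

end Fermat.Agent.Red.KR
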