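import Fermat.Agent.Red.KR.KeyOf
import Fermat.Agent.Red.KR.Kappa
import Fermat.Agent.Red.KR.Nbr
import Fermat.Agent.Red.KR.NormFin
import Fermat.Agent.Red.KR.NormInf27
import Fermat.Agent.Red.KR.Val
import Fermat.Agent.Red.ESTF.Final

/-!
# P-RED, module R-KR (helper90): the Kronecker interface from ME-α

All leaves of R-KR except ME-α (`j(q^ℓ)` is integral over `A[j]`) are wired here:
`ifaceKronecker_of_meAlpha : MEAlphaStatement → ∀ N, IfaceKronecker N`.
-/

set_option autoImplicit false

open AlgebraicCurve ModularCurve IntermediateField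

noncomputable section

namespace Fermat.Agent.Red.KR

open Fermat.Agent.S37

/-- the Kronecker interface, from ME-α alone. -/
theorem ifaceKronecker_of_meAlpha (h : MEAlphaStatement) (N : ℕ) [NeZero N] :
    IfaceKronecker N :=
  ifaceKronecker_of (Fermat.Agent.Red.ESTF.ifaceCongFrobenius N) kappa val (nbr h) (normFin h)
    (h27_normInf h)

end Fermat.Agent.Red.KR
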