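import Fermat.Agent.S37.Gate
import Fermat.Agent.S28.Defs
import Fermat.Agent.Red.TransferRed
import Fermat.Agent.Red.KR.Asm

/-!
# P-RED, module R-KR (helper90): frozen statements of the leaves

`IfaceKey N` (hence `IfaceKronecker N`) is proved **pointwise**: for a chart function `f` and a
constant `c ∈ A` the norm `ν_c = Norm_α (β (c - f))` is, by `IfaceCongFrobenius`, congruent to
`σ(c - f) · (σ⁻¹(c - f))^ℓ` for the Gauss valuation; by NORMLOC along `β` and the Fricke
involution its value at a place `x` is `∏ (c - f(u_i))`, `u_i` the places of `T_ℓ x`; the values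
of the right hand side at `x` are `≡ (c - f(σ x)) (c - f(σ⁻¹ x))^ℓ`.  The residue field being
infinite, the two monic polynomials are congruent.

Every declaration below is a `def … : Prop`; nothing is assumed.
-/

set_option autoImplicit false

open AlgebraicCurve ModularCurve IntermediateField Polynomial

noncomputable section

namespace Fermat.Agent.Red.KR

open Fermat.Agent.S37

/-- **KAPPA.**  For a Frobenius element `σ` at `A` and every nonzero constant `c`:
`c^(ℓ+1) / (σ c · (σ⁻¹ c)^ℓ) ≡ 1` modulo `𝔪_A`. -/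
def KappaStatement : Prop :=
  ∀ (ℓ : ℕ) (A : ValuationSubring Kbar) (σ : GQ), A.IsFrobeniusAt σ ℓ →
    ∀ c : Kbar, c ≠ 0 → c ^ (ℓ + 1) / (σ c * (σ⁻¹ c) ^ ℓ) - 1 ∈ A.nonunits

/-- **REFLECT** (Mathlib only).  If `Y` is integral over `A[J]`, then `s(1/Y) · (1/J)` is
integral over `A[1/Y]` for some `s ∈ A[T]` with `s(0) = 1`. -/
def ReflectStatement : Prop :=
  ∀ (A L : Type) [CommRing A] [Field L] (ι : A →+* L) (J Y : L), J ≠ 0 → Y ≠ 0 →
    (eval₂RingHom ι J).IsIntegralElem Y →
    ∃ s : Polynomial A, s.coeff 0 = 1 ∧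
      (eval₂RingHom ι Y⁻¹).IsIntegralElem (eval₂ ι Y⁻¹ s * J⁻¹)

/-- **MULT** (Mathlib only).  If `s(V) · U` is integral over `A[V]` and `f` is integral over
`A[U]`, then `s(V)^E · f` is integral over `A[V]` for some `E`. -/
def MultStatement : Prop :=
  ∀ (A L : Type) [CommRing A] [Field L] (ι : A →+* L) (U V : L) (s : Polynomial A),
    (eval₂RingHom ι V).IsIntegralElem (eval₂ ι V s * U) →
    ∀ f : L, (eval₂RingHom ι U).IsIntegralElem f →
      ∃ E : ℕ, (eval₂RingHom ι V).IsIntegralElem (eval₂ ι V s ^ E * f)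

/-- **ME0** (characteristic zero).  `j(q^d)` is integral over `ℚ[j]`. -/
def ME0Statement : Prop :=
  ∀ d : ℕ, 0 < d → ∃ P : Polynomial (Polynomial ℚ), P.Monic ∧
    P.eval₂ (Fermat.Agent.S28.evalAtQ jq) (Fermat.Agent.S28.jSub d) = 0

/-- **FRICKE.**  An automorphism of `F_{Nℓ}` which exchanges `α` and `β`. -/
def FrickeStatement (N ℓ : ℕ) [NeZero N] [NeZero ℓ] : Prop :=
  ∃ w : FF (N * ℓ) ≃ₐ[Kbar] FF (N * ℓ),
    (∀ x : FF N, w (heckeAlphaBar Kbar N ℓ x) = heckeBetaBar Kbar N ℓ x) ∧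
    (∀ x : FF N, w (heckeBetaBar Kbar N ℓ x) = heckeAlphaBar Kbar N ℓ x)

end Fermat.Agent.Red.KR
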