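import Fermat.Agent.Red.KR.Basic
import Fermat.Agent.Red.NormLocAlong

/-!
# P-RED, module R-KR (helper90): frozen statements of the second layer of leaves

`normAlong`, `RedZero`, … are in `Red/KR/Basic.lean`.  Notation: `α = heckeAlphaBar`,
`β = heckeBetaBar`, `ν(u) = normAlong α (β u)`, `t = 1/j`.

Every declaration below is a `def … : Prop`; nothing is assumed.
-/

set_option autoImplicit false

open AlgebraicCurve ModularCurve IntermediateField Polynomial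

noncomputable section

namespace Fermat.Agent.Red.KR

open Fermat.Agent.S37

/-- **ME-α.**  `j(q^ℓ)` is integral over `A[j]` (in `F_{Nℓ}`). -/
def MEAlphaStatement : Prop :=
  ∀ (N ℓ : ℕ) [NeZero N] [NeZero ℓ], ℓ.Prime → ¬ ℓ ∣ N →
    ∀ A : ValuationSubring Kbar, A.LiesOverPrime ℓ →
      heckeBetaBar Kbar N ℓ (jB N) ∈ modelFin (N * ℓ) A

/-- **ME-β.**  `j` is integral over `A[j(q^ℓ)]` (in `F_{Nℓ}`). -/
def MEBetaStatement : Prop :=
  ∀ (N ℓ : ℕ) [NeZero N] [NeZero ℓ], ℓ.Prime → ¬ ℓ ∣ N →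
    ∀ A : ValuationSubring Kbar, A.LiesOverPrime ℓ →
      jB (N * ℓ) ∈ modelAt (N * ℓ) A (heckeBetaBar Kbar N ℓ (jB N))

/-- **VAL.**  The places `w i` of `F_{Nℓ}` above `x` along `β`, listed with multiplicity;
`T_ℓ x` is the sum of their restrictions along `α`; the value at `x` of
`ν(c - f) = Norm_α (β (c - f))` is `∏ (c - f(u i))`. -/
def ValStatement : Prop :=
  ∀ (N ℓ : ℕ) [NeZero N] [NeZero ℓ], ℓ.Prime → ¬ ℓ ∣ N →
    ∀ (hα : HeckeAlphaBarIntegral Kbar N ℓ) (hβ : HeckeBetaBarIntegral Kbar N ℓ)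
      [HasPrincipalDivisors Kbar (FF (N * ℓ))] (x : Place Kbar (FF N)),
      ∃ w : Fin (ℓ + 1) → Place Kbar (FF (N * ℓ)),
        (∀ i, (w i).restrictAlong (heckeBetaBar Kbar N ℓ) hβ = x) ∧
        heckeDivBar hα hβ (Finsupp.single x (1 : ℤ)) =
          ∑ i, Finsupp.single ((w i).restrictAlong (heckeAlphaBar Kbar N ℓ) hα) (1 : ℤ) ∧
        ∀ f : FF N, (∀ i, heckeAlphaBar Kbar N ℓ f ∈ (w i).toValuationSubring) →
          ∃ a : Fin (ℓ + 1) → Kbar,
            (∀ i, ValueAt (w i) (heckeAlphaBar Kbar N ℓ f) (a i)) ∧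
            ∀ c : Kbar, ValueAt x
              (normAlong (heckeAlphaBar Kbar N ℓ) (heckeBetaBar Kbar N ℓ (cst N c - f)))
              (∏ i, (c - a i))

/-- **NBR.**  A place of `F_{Nℓ}` is finite along `α` iff it is finite along `β`. -/
def NbrStatement : Prop :=
  ∀ (N ℓ : ℕ) [NeZero N] [NeZero ℓ], ℓ.Prime → ¬ ℓ ∣ N →
    ∀ A : ValuationSubring Kbar, A.LiesOverPrime ℓ →
    ∀ (hα : HeckeAlphaBarIntegral Kbar N ℓ) (hβ : HeckeBetaBarIntegral Kbar N ℓ)
      (w : Place Kbar (FF (N * ℓ))),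
      IsFinAt A (w.restrictAlong (heckeAlphaBar Kbar N ℓ) hα) ↔
        IsFinAt A (w.restrictAlong (heckeBetaBar Kbar N ℓ) hβ)

/-- **NORM-FIN.**  `ν` maps the finite chart to the finite chart. -/
def NormFinStatement : Prop :=
  ∀ (N ℓ : ℕ) [NeZero N] [NeZero ℓ], ℓ.Prime → ¬ ℓ ∣ N →
    ∀ A : ValuationSubring Kbar, A.LiesOverPrime ℓ → ∀ f ∈ modelFin N A,
      normAlong (heckeAlphaBar Kbar N ℓ) (heckeBetaBar Kbar N ℓ f) ∈ modelFin N A

/-- **NORM-INF.**  `ν` maps the chart at infinity to the chart at infinity, up to a multiplier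
`h` which is `≡ 1` at all non-finite places. -/
def NormInfStatement : Prop :=
  ∀ (N ℓ : ℕ) [NeZero N] [NeZero ℓ], ℓ.Prime → ¬ ℓ ∣ N →
    ∀ A : ValuationSubring Kbar, A.LiesOverPrime ℓ → ∀ f ∈ modelInf N A,
      ∃ h ∈ modelInf N A,
        (∀ x : Place Kbar (FF N), ¬ IsFinAt A x → ∃ e ∈ A.nonunits, ValueAt x h (1 + e)) ∧
        ∀ c ∈ A, h * normAlong (heckeAlphaBar Kbar N ℓ)
          (heckeBetaBar Kbar N ℓ (cst N c - f)) ∈ modelInf N A

end Fermat.Agent.Red.KR
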